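import Fermat.Agent.S23.IntPS

/-!
# S23, lemma D: bounded denominators

A power series `F` with rational coefficients which is a fraction `B / A` of elements of the
`ℂ`-span of the integral power series and which is integral over that span has bounded
denominators: `D • F` has integral coefficients for some `D ≠ 0`.

Proof: a `ℚ`-linear retraction `ℂ → ℚ` (applied coefficientwise, twisted by a scalar) moves the
two relations to `ℚ⟦X⟧`, with coefficients in `ℤ⟦X⟧[1/D]`; then `ℤ⟦X⟧` is a UFD, hence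
integrally closed.
-/

set_option autoImplicit false

namespace Fermat.Agent.S23

/-- An element of a domain `S ⊇ R` which is a fraction of elements of the integrally closed
domain `R` and is a root of a monic polynomial over `R` lies in `R`. -/
theorem S23_mem_of_integral_of_frac {R S : Type*} [CommRing R] [IsDomain R]
    [IsIntegrallyClosed R] [CommRing S] [IsDomain S] (ι : R →+* S) (hι : Function.Injective ι)
    (x : S) (a b : R) (ha : a ≠ 0) (hab : x * ι a = ι b)
    (p : Polynomial R) (hp : p.Monic) (hx : p.eval₂ ι x = 0) : ∃ r : R, ι r = x := by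
  have hj : Function.Injective (algebraMap S (FractionRing S)) :=
    IsFractionRing.injective S (FractionRing S)
  have hg : Function.Injective ((algebraMap S (FractionRing S)).comp ι) := by
    intro u v huv
    exact hι (hj (by simpa using huv))
  have hφ : ∀ r : R, (IsFractionRing.lift hg : FractionRing R →+* FractionRing S)
      (algebraMap R (FractionRing R) r) = algebraMap S (FractionRing S) (ι r) := fun r =>
    IsFractionRing.lift_algebraMap hg r
  have hja : algebraMap S (FractionRing S) (ι a) ≠ 0 := by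
    intro h
    exact ha (hg (by simpa using h))
  have hφk : (IsFractionRing.lift hg : FractionRing R →+* FractionRing S)
      (algebraMap R (FractionRing R) b / algebraMap R (FractionRing R) a) =
        algebraMap S (FractionRing S) x := by
    rw [map_div₀, hφ, hφ, ← hab, map_mul, mul_div_assoc, div_self hja, mul_one]
  have hint : IsIntegral R
      (algebraMap R (FractionRing R) b / algebraMap R (FractionRing R) a) := by
    refine ⟨p, hp, ?_⟩
    apply (IsFractionRing.lift hg : FractionRing R →+* FractionRing S).injective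
    rw [map_zero, Polynomial.hom_eval₂, hφk]
    have : (IsFractionRing.lift hg : FractionRing R →+* FractionRing S).comp
        (algebraMap R (FractionRing R)) = (algebraMap S (FractionRing S)).comp ι := by
      ext r; exact hφ r
    rw [this, ← Polynomial.hom_eval₂, hx, map_zero]
  obtain ⟨r, hr⟩ := IsIntegrallyClosed.algebraMap_eq_of_integral hint
  refine ⟨r, hj ?_⟩
  rw [← hφ, hr, hφk]

/-- coefficientwise application of a `ℚ`-linear functional `ℂ → ℚ`. -/
noncomputable def S23_Lam (ℓ : ℂ →ₗ[ℚ] ℚ) (P : PowerSeries ℂ) : PowerSeries ℚ :=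
  PowerSeries.mk fun n => ℓ (PowerSeries.coeff n P)

lemma S23_Lam_coeff (ℓ : ℂ →ₗ[ℚ] ℚ) (P : PowerSeries ℂ) (n : ℕ) :
    PowerSeries.coeff n (S23_Lam ℓ P) = ℓ (PowerSeries.coeff n P) := by
  simp [S23_Lam]

lemma S23_Lam_add (ℓ : ℂ →ₗ[ℚ] ℚ) (P Q : PowerSeries ℂ) :
    S23_Lam ℓ (P + Q) = S23_Lam ℓ P + S23_Lam ℓ Q := by
  ext n; simp [S23_Lam_coeff]

lemma S23_Lam_zero (ℓ : ℂ →ₗ[ℚ] ℚ) : S23_Lam ℓ 0 = 0 := by
  ext n; simp [S23_Lam_coeff]

lemma S23_Lam_sum (ℓ : ℂ →ₗ[ℚ] ℚ) {ι : Type*} (s : Finset ι) (f : ι → PowerSeries ℂ) :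
    S23_Lam ℓ (∑ i ∈ s, f i) = ∑ i ∈ s, S23_Lam ℓ (f i) := by
  ext n; simp [S23_Lam_coeff]

lemma S23_Lam_map_mul (ℓ : ℂ →ₗ[ℚ] ℚ) (G : PowerSeries ℚ) (P : PowerSeries ℂ) :
    S23_Lam ℓ (G.map (algebraMap ℚ ℂ) * P) = G * S23_Lam ℓ P := by
  ext n
  simp only [S23_Lam_coeff, PowerSeries.coeff_mul, PowerSeries.coeff_map, map_sum]
  refine Finset.sum_congr rfl fun x _ => ?_
  rw [← Algebra.smul_def, map_smul, smul_eq_mul]

lemma S23_Lam_mul_map (ℓ : ℂ →ₗ[ℚ] ℚ) (G : PowerSeries ℚ) (P : PowerSeries ℂ) :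
    S23_Lam ℓ (P * G.map (algebraMap ℚ ℂ)) = S23_Lam ℓ P * G := by
  rw [mul_comm, S23_Lam_map_mul, mul_comm]

lemma S23_Lam_map (ℓ : ℂ →ₗ[ℚ] ℚ) (h1 : ℓ 1 = 1) (G : PowerSeries ℚ) :
    S23_Lam ℓ (G.map (algebraMap ℚ ℂ)) = G := by
  ext n
  rw [S23_Lam_coeff, PowerSeries.coeff_map, Algebra.algebraMap_eq_smul_one, map_smul, h1,
    smul_eq_mul, mul_one]

lemma S23_Lam_intSpan (P : PowerSeries ℂ) (hP : P ∈ IntSpanPS) :
    ∀ ℓ : ℂ →ₗ[ℚ] ℚ, ∃ D : ℕ, D ≠ 0 ∧ ∃ Q : PowerSeries ℤ,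
      PowerSeries.C (D : ℚ) * S23_Lam ℓ P = Q.map (Int.castRingHom ℚ) := by
  induction hP using Submodule.span_induction with
  | mem x hx =>
    intro ℓ
    obtain ⟨P₀, rfl⟩ := (isIntPS_iff _).1 hx
    refine ⟨(ℓ 1).den, (ℓ 1).den_nz, PowerSeries.C (ℓ 1).num * P₀, ?_⟩
    ext n
    have h1 : ℓ ((PowerSeries.coeff n P₀ : ℤ) : ℂ) = ((PowerSeries.coeff n P₀ : ℤ) : ℚ) * ℓ 1 := by
      have : ((PowerSeries.coeff n P₀ : ℤ) : ℂ) = ((PowerSeries.coeff n P₀ : ℤ) : ℚ) • (1 : ℂ) := by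
        rw [Algebra.smul_def]; simp
      rw [this, map_smul, smul_eq_mul]
    simp only [S23_Lam_coeff, PowerSeries.coeff_map, PowerSeries.coeff_C_mul]
    simp only [eq_intCast, Int.cast_mul]
    rw [h1]
    have := Rat.mul_den_eq_num (ℓ 1)
    linear_combination ((PowerSeries.coeff n P₀ : ℤ) : ℚ) * this
  | zero => intro ℓ; exact ⟨1, one_ne_zero, 0, by simp [S23_Lam_zero]⟩
  | add y z _ _ hy hz =>
    intro ℓ
    obtain ⟨D₁, hD₁, Q₁, h₁⟩ := hy ℓ
    obtain ⟨D₂, hD₂, Q₂, h₂⟩ := hz ℓ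
    refine ⟨D₁ * D₂, mul_ne_zero hD₁ hD₂,
      PowerSeries.C (D₂ : ℤ) * Q₁ + PowerSeries.C (D₁ : ℤ) * Q₂, ?_⟩
    rw [map_add, map_mul, map_mul, PowerSeries.map_C, PowerSeries.map_C, ← h₁, ← h₂,
      S23_Lam_add]
    simp only [eq_intCast, Int.cast_natCast, Nat.cast_mul, map_mul]
    ring
  | smul c y _ hy =>
    intro ℓ
    obtain ⟨D, hD, Q, h⟩ := hy (ℓ.comp (LinearMap.mulLeft ℚ c))
    refine ⟨D, hD, Q, ?_⟩
    rw [← h]; congr 1


theorem bdd_denoms (F : PowerSeries ℂ) (hF : IsRatPS F) (A B : PowerSeries ℂ)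
    (hA : A ∈ IntSpanPS) (hB : B ∈ IntSpanPS) (hA0 : A ≠ 0) (hFAB : F * A = B)
    (n : ℕ) (C : ℕ → PowerSeries ℂ) (hC : ∀ i, C i ∈ IntSpanPS)
    (hint : F ^ n + ∑ i ∈ Finset.range n, C i * F ^ (n - 1 - i) = 0) :
    ∃ D : ℕ, D ≠ 0 ∧ IsIntPS ((D : ℂ) • F) := by
  obtain ⟨F', rfl⟩ := (isRatPS_iff _).1 hF
  -- the retraction
  obtain ⟨lam, hlam⟩ := LinearMap.exists_leftInverse_of_injective (Algebra.linearMap ℚ ℂ)
    (LinearMap.ker_eq_bot.2 (algebraMap ℚ ℂ).injective)
  have hlam1 : lam 1 = 1 := by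
    have := LinearMap.congr_fun hlam 1
    simpa using this
  -- `F'` is a fraction of integral power series
  obtain ⟨a, b, ha, hab⟩ : ∃ a b : PowerSeries ℤ, a ≠ 0 ∧
      F' * a.map (Int.castRingHom ℚ) = b.map (Int.castRingHom ℚ) := by
    obtain ⟨m, hm⟩ : ∃ m, PowerSeries.coeff m A ≠ 0 := by
      by_contra h
      exact hA0 (PowerSeries.ext fun m => by simpa using not_not.1 (not_exists.1 h m))
    have hℓA : S23_Lam (lam.comp (LinearMap.mulLeft ℚ (PowerSeries.coeff m A)⁻¹)) A ≠ 0 := by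
      intro h
      have := congrArg (PowerSeries.coeff m) h
      rw [S23_Lam_coeff] at this
      simp [inv_mul_cancel₀ hm, hlam1] at this
    obtain ⟨D₁, hD₁, Q₁, h₁⟩ := S23_Lam_intSpan A hA
      (lam.comp (LinearMap.mulLeft ℚ (PowerSeries.coeff m A)⁻¹))
    obtain ⟨D₂, hD₂, Q₂, h₂⟩ := S23_Lam_intSpan B hB
      (lam.comp (LinearMap.mulLeft ℚ (PowerSeries.coeff m A)⁻¹))
    have key : F' * S23_Lam (lam.comp (LinearMap.mulLeft ℚ (PowerSeries.coeff m A)⁻¹)) A =
        S23_Lam (lam.comp (LinearMap.mulLeft ℚ (PowerSeries.coeff m A)⁻¹)) B := by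
      rw [← S23_Lam_map_mul, hFAB]
    refine ⟨PowerSeries.C (D₂ : ℤ) * Q₁, PowerSeries.C (D₁ : ℤ) * Q₂, ?_, ?_⟩
    · refine mul_ne_zero ?_ ?_
      · rw [Ne, map_eq_zero_iff _ PowerSeries.C_injective]
        exact_mod_cast hD₂
      · rintro rfl
        rw [map_zero] at h₁
        rcases mul_eq_zero.1 h₁ with h | h
        · rw [map_eq_zero_iff _ PowerSeries.C_injective] at h
          exact hD₁ (by exact_mod_cast h)
        · exact hℓA h
    · rw [map_mul, map_mul, PowerSeries.map_C, PowerSeries.map_C, ← h₁, ← h₂, ← key]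
      simp only [eq_intCast, Int.cast_natCast]
      ring
  -- the monic relation over `ℤ⟦X⟧`
  have hrel : F' ^ n + ∑ i ∈ Finset.range n, S23_Lam lam (C i) * F' ^ (n - 1 - i) = 0 := by
    have := congrArg (S23_Lam lam) hint
    rw [S23_Lam_add, S23_Lam_sum, S23_Lam_zero, ← map_pow, S23_Lam_map lam hlam1] at this
    rw [← this]
    congr 1
    refine Finset.sum_congr rfl fun i _ => ?_
    rw [← map_pow, S23_Lam_mul_map]
  choose Dc hDc Qc hQc using fun i => S23_Lam_intSpan (C i) (hC i) lam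
  have hD0 : (∏ i ∈ Finset.range n, Dc i) ≠ 0 := Finset.prod_ne_zero_iff.2 fun i _ => hDc i
  refine ⟨∏ i ∈ Finset.range n, Dc i, hD0, ?_⟩
  generalize hD : (∏ i ∈ Finset.range n, Dc i) = D at hD0 ⊢
  have hmap_inj : Function.Injective (PowerSeries.map (Int.castRingHom ℚ)) :=
    PowerSeries.map_injective _ Int.cast_injective
  have hr : ∀ i ∈ Finset.range n,
      (PowerSeries.C ((D ^ i * (D / Dc i) : ℕ) : ℤ) * Qc i).map (Int.castRingHom ℚ) =
        PowerSeries.C (D : ℚ) ^ (i + 1) * S23_Lam lam (C i) := by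
    intro i hi
    have hdvd : Dc i ∣ D := hD ▸ Finset.dvd_prod_of_mem _ hi
    have h1 : ((D / Dc i : ℕ) : ℚ) * (Dc i : ℚ) = D := by
      exact_mod_cast Nat.div_mul_cancel hdvd
    have h2 : PowerSeries.C ((D / Dc i : ℕ) : ℚ) * PowerSeries.C (Dc i : ℚ) =
        PowerSeries.C (D : ℚ) := by
      rw [← map_mul, h1]
    rw [map_mul, PowerSeries.map_C, ← hQc i]
    simp only [eq_intCast, Int.cast_natCast, Nat.cast_mul, Nat.cast_pow, map_mul, map_pow]
    linear_combination (PowerSeries.C (D : ℚ) ^ i * S23_Lam lam (C i)) * h2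
  have hpm : (Polynomial.X ^ n + ∑ i ∈ Finset.range n,
      Polynomial.C (PowerSeries.C ((D ^ i * (D / Dc i) : ℕ) : ℤ) * Qc i) *
        Polynomial.X ^ (n - 1 - i) : Polynomial (PowerSeries ℤ)).Monic := by
    apply Polynomial.monic_X_pow_add
    refine lt_of_le_of_lt (Polynomial.degree_sum_le _ _) ?_
    refine (Finset.sup_lt_iff (WithBot.bot_lt_coe n)).2 ?_
    intro i hi
    refine lt_of_le_of_lt (Polynomial.degree_C_mul_X_pow_le _ _) ?_
    exact WithBot.coe_lt_coe.2 (by have := Finset.mem_range.1 hi; omega : n - 1 - i < n)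
  have hev : (Polynomial.X ^ n + ∑ i ∈ Finset.range n,
      Polynomial.C (PowerSeries.C ((D ^ i * (D / Dc i) : ℕ) : ℤ) * Qc i) *
        Polynomial.X ^ (n - 1 - i) : Polynomial (PowerSeries ℤ)).eval₂
        (PowerSeries.map (Int.castRingHom ℚ)) (PowerSeries.C (D : ℚ) * F') = 0 := by
    rw [Polynomial.eval₂_add, Polynomial.eval₂_pow, Polynomial.eval₂_X,
      Polynomial.eval₂_finsetSum]
    have hterm : ∀ i ∈ Finset.range n, Polynomial.eval₂ (PowerSeries.map (Int.castRingHom ℚ))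
        (PowerSeries.C (D : ℚ) * F')
        (Polynomial.C (PowerSeries.C ((D ^ i * (D / Dc i) : ℕ) : ℤ) * Qc i) *
          Polynomial.X ^ (n - 1 - i)) =
        PowerSeries.C (D : ℚ) ^ n * (S23_Lam lam (C i) * F' ^ (n - 1 - i)) := by
      intro i hi
      rw [Polynomial.eval₂_mul, Polynomial.eval₂_C, Polynomial.eval₂_pow, Polynomial.eval₂_X,
        hr i hi, mul_pow]
      have hn : n = (i + 1) + (n - 1 - i) := by have := Finset.mem_range.1 hi; omega
      conv_rhs => rw [hn, pow_add]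
      have hn' : i + 1 + (n - 1 - i) - 1 - i = n - 1 - i := by omega
      rw [hn']
      ring
    rw [Finset.sum_congr rfl hterm, ← Finset.mul_sum, mul_pow, ← mul_add, hrel, mul_zero]
  obtain ⟨r, hr'⟩ := S23_mem_of_integral_of_frac (PowerSeries.map (Int.castRingHom ℚ)) hmap_inj
    (PowerSeries.C (D : ℚ) * F') a (PowerSeries.C (D : ℤ) * b) ha
    (by rw [map_mul, PowerSeries.map_C, mul_assoc, hab]; simp) _ hpm hev
  intro k
  refine ⟨PowerSeries.coeff k r, ?_⟩
  have := congrArg (PowerSeries.coeff k) hr'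
  simp only [PowerSeries.coeff_map, PowerSeries.coeff_C_mul, eq_intCast] at this
  simp only [map_smul, smul_eq_mul, PowerSeries.coeff_map]
  have h3 : ((PowerSeries.coeff k r : ℤ) : ℂ) = (((PowerSeries.coeff k r : ℤ) : ℚ) : ℂ) := by
    push_cast; rfl
  rw [h3, this]
  push_cast
  rfl

end Fermat.Agent.S23
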