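import Fermat.Agent.S23.Defs

/-!
# S23, package B: analytic extension

If `A ≠ 0`, `B` are modular forms on an arithmetic group `𝒢` (weights `w`, `w + k`) and the ratio
`B / A` satisfies a monic polynomial equation whose coefficients are level one cusp forms, then
`B / A` is (the restriction to `{A ≠ 0}` of) a cusp form of weight `k` on `𝒢`.
-/

set_option autoImplicit false

open UpperHalfPlane ModularForm ModularFormClass Filter Topology
open scoped MatrixGroups Manifold

namespace Fermat.Agent.S23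

/-- Cauchy bound for the roots of a monic polynomial. -/
lemma norm_le_of_monic_rel (t : ℂ) (n : ℕ) (c : ℕ → ℂ)
    (h : t ^ n + ∑ i ∈ Finset.range n, c i * t ^ (n - 1 - i) = 0) :
    ‖t‖ ≤ 1 + ∑ i ∈ Finset.range n, ‖c i‖ := by
  have hS : 0 ≤ ∑ i ∈ Finset.range n, ‖c i‖ := Finset.sum_nonneg fun _ _ => norm_nonneg _
  rcases le_or_gt ‖t‖ 1 with h1 | h1
  · linarith
  rcases Nat.eq_zero_or_pos n with hn | hn
  · subst hn; simp at h
  have htn : t ^ n = - ∑ i ∈ Finset.range n, c i * t ^ (n - 1 - i) := eq_neg_of_add_eq_zero_left h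
  have h2 : ‖t‖ ^ n ≤ (∑ i ∈ Finset.range n, ‖c i‖) * ‖t‖ ^ (n - 1) := by
    calc ‖t‖ ^ n = ‖t ^ n‖ := (norm_pow t n).symm
      _ = ‖∑ i ∈ Finset.range n, c i * t ^ (n - 1 - i)‖ := by rw [htn, norm_neg]
      _ ≤ ∑ i ∈ Finset.range n, ‖c i * t ^ (n - 1 - i)‖ := norm_sum_le _ _
      _ ≤ ∑ i ∈ Finset.range n, ‖c i‖ * ‖t‖ ^ (n - 1) := by
          refine Finset.sum_le_sum fun i _ => ?_
          rw [norm_mul, norm_pow]
          exact mul_le_mul_of_nonneg_left
            (pow_le_pow_right₀ h1.le (Nat.sub_le _ _)) (norm_nonneg _)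
      _ = (∑ i ∈ Finset.range n, ‖c i‖) * ‖t‖ ^ (n - 1) := by rw [Finset.sum_mul]
  have hpos : 0 < ‖t‖ ^ (n - 1) := pow_pos (by linarith) _
  have h3 : ‖t‖ ^ n = ‖t‖ * ‖t‖ ^ (n - 1) := by
    rw [← pow_succ']; congr 1; omega
  rw [h3] at h2
  have := le_of_mul_le_mul_right h2 hpos
  linarith

/-- If the coefficients of a monic polynomial are small, so are its roots. -/
lemma norm_le_of_monic_rel_small (t : ℂ) (n : ℕ) (c : ℕ → ℂ) {ε : ℝ} (hε : 0 < ε) (hε1 : ε ≤ 1)
    (hc : ∑ i ∈ Finset.range n, ‖c i‖ ≤ ε ^ n)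
    (h : t ^ n + ∑ i ∈ Finset.range n, c i * t ^ (n - 1 - i) = 0) :
    ‖t‖ ≤ ε := by
  rcases Nat.eq_zero_or_pos n with hn | hn
  · subst hn; simp at h
  by_contra hlt
  rw [not_le] at hlt
  have htn : t ^ n = - ∑ i ∈ Finset.range n, c i * t ^ (n - 1 - i) := eq_neg_of_add_eq_zero_left h
  set m : ℝ := max 1 ‖t‖ with hm
  have hm1 : 1 ≤ m := le_max_left _ _
  have h2 : ‖t‖ ^ n ≤ (∑ i ∈ Finset.range n, ‖c i‖) * m ^ (n - 1) := by
    calc ‖t‖ ^ n = ‖t ^ n‖ := (norm_pow t n).symm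
      _ = ‖∑ i ∈ Finset.range n, c i * t ^ (n - 1 - i)‖ := by rw [htn, norm_neg]
      _ ≤ ∑ i ∈ Finset.range n, ‖c i * t ^ (n - 1 - i)‖ := norm_sum_le _ _
      _ ≤ ∑ i ∈ Finset.range n, ‖c i‖ * m ^ (n - 1) := by
          refine Finset.sum_le_sum fun i _ => ?_
          rw [norm_mul, norm_pow]
          refine mul_le_mul_of_nonneg_left ?_ (norm_nonneg _)
          calc ‖t‖ ^ (n - 1 - i) ≤ m ^ (n - 1 - i) :=
                pow_le_pow_left₀ (norm_nonneg _) (le_max_right _ _) _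
            _ ≤ m ^ (n - 1) := pow_le_pow_right₀ hm1 (Nat.sub_le _ _)
      _ = (∑ i ∈ Finset.range n, ‖c i‖) * m ^ (n - 1) := by rw [Finset.sum_mul]
  have h3 : ‖t‖ ^ n ≤ ε ^ n * m ^ (n - 1) :=
    h2.trans (mul_le_mul_of_nonneg_right hc (by positivity))
  rcases le_or_gt ‖t‖ 1 with h1 | h1
  · -- `m = 1`
    have : m = 1 := max_eq_left h1
    rw [this, one_pow, mul_one] at h3
    have h4 : ‖t‖ ≤ ε := (pow_le_pow_iff_left₀ (norm_nonneg _) hε.le hn.ne').1 h3
    linarith
  · have : m = ‖t‖ := max_eq_right h1.le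
    rw [this] at h3
    have hpos : 0 < ‖t‖ ^ (n - 1) := pow_pos (by linarith) _
    have h5 : ‖t‖ ^ n = ‖t‖ * ‖t‖ ^ (n - 1) := by
      rw [← pow_succ']; congr 1; omega
    rw [h5] at h3
    have h6 : ‖t‖ ≤ ε ^ n := le_of_mul_le_mul_right h3 hpos
    have h7 : ε ^ n ≤ 1 := pow_le_one₀ hε.le hε1
    linarith


private lemma isPreconnected_uhp : IsPreconnected upperHalfPlaneSet :=
  (Complex.isConnected_of_upperHalfPlane subset_rfl (by grind)).isPreconnected

/-- The holomorphic quotient `B / A`, when it is locally bounded by continuous data. -/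
theorem exists_mdiff_quotient {A B : ℍ → ℂ} (hAd : MDiff A) (hBd : MDiff B) (hA : A ≠ 0)
    (n : ℕ) (C : ℕ → ℍ → ℂ) (hC : ∀ i, Continuous (C i))
    (h : ∀ z : ℍ, B z ^ n + ∑ i ∈ Finset.range n, C i z * A z ^ (i + 1) * B z ^ (n - 1 - i) = 0) :
    ∃ f : ℍ → ℂ, MDiff f ∧ ∀ z, f z * A z = B z := by
  set a : ℂ → ℂ := B ∘ ofComplex with ha_def
  set d : ℂ → ℂ := A ∘ ofComplex with hd_def
  set g : ℂ → ℂ := fun w => a w / d w with hg_def
  set hh : ℂ → ℂ := fun z => limUnder (𝓝[≠] z) g with hh_def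
  have ha : DifferentiableOn ℂ a upperHalfPlaneSet := mdifferentiable_iff.1 hBd
  have hd : DifferentiableOn ℂ d upperHalfPlaneSet := mdifferentiable_iff.1 hAd
  have hUnhds : ∀ z : ℂ, 0 < z.im → upperHalfPlaneSet ∈ 𝓝 z := fun z hz =>
    isOpen_upperHalfPlaneSet.mem_nhds hz
  -- isolated zeros of `d`
  have hiso : ∀ z : ℂ, 0 < z.im → ∀ᶠ w in 𝓝[≠] z, d w ≠ 0 := by
    intro z hz
    by_contra hcon
    rw [Filter.not_eventually] at hcon
    have hcon' : ∃ᶠ w in 𝓝[≠] z, d w = 0 := hcon.mono fun w hw => not_not.1 hw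
    have hzero := (hd.analyticOnNhd isOpen_upperHalfPlaneSet).eqOn_zero_of_preconnected_of_frequently_eq_zero
      isPreconnected_uhp hz hcon'
    apply hA
    ext τ
    have := hzero τ.im_pos
    simpa [hd_def, Function.comp, ofComplex_apply] using this
  -- `g` is differentiable where `d ≠ 0`
  have hgdiff : ∀ z : ℂ, 0 < z.im → d z ≠ 0 → DifferentiableAt ℂ g z := by
    intro z hz hdz
    exact (ha.differentiableAt (hUnhds z hz)).div (hd.differentiableAt (hUnhds z hz)) hdz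
  -- value of `hh` where `d ≠ 0`
  have hval : ∀ z : ℂ, 0 < z.im → d z ≠ 0 → hh z = g z := by
    intro z hz hdz
    exact ((hgdiff z hz hdz).continuousAt.tendsto.mono_left nhdsWithin_le_nhds).limUnder_eq
  -- continuity of the coefficient functions on `ℂ`
  have hCc : ∀ i, ∀ z : ℂ, 0 < z.im → ContinuousAt (C i ∘ ofComplex) z := by
    intro i z hz
    have h1 : ContinuousAt (ofComplex : ℂ → ℍ) z :=
      ofComplex.continuousAt (by simpa [ofComplex] using hz)
    exact (hC i).continuousAt.comp h1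
  -- the relation on `ℂ`
  have hrel : ∀ z : ℂ, 0 < z.im → d z ≠ 0 →
      g z ^ n + ∑ i ∈ Finset.range n, (C i ∘ ofComplex) z * g z ^ (n - 1 - i) = 0 := by
    intro z hz hdz
    have h0 := h ⟨z, hz⟩
    have e1 : A ⟨z, hz⟩ = d z := by simp [hd_def, ofComplex_apply_of_im_pos hz]
    have e2 : B ⟨z, hz⟩ = a z := by simp [ha_def, ofComplex_apply_of_im_pos hz]
    have e3 : ∀ i, C i ⟨z, hz⟩ = (C i ∘ ofComplex) z := fun i => by
      simp [Function.comp, ofComplex_apply_of_im_pos hz]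
    rw [e1, e2] at h0
    simp only [e3] at h0
    rcases Nat.eq_zero_or_pos n with hn | hn
    · subst hn; simp at h0
    have hdn : d z ^ n ≠ 0 := pow_ne_zero _ hdz
    have key : (g z ^ n + ∑ i ∈ Finset.range n, (C i ∘ ofComplex) z * g z ^ (n - 1 - i)) * d z ^ n
        = a z ^ n + ∑ i ∈ Finset.range n, (C i ∘ ofComplex) z * d z ^ (i + 1) * a z ^ (n - 1 - i) := by
      rw [add_mul, Finset.sum_mul]
      congr 1
      · simp only [hg_def]; rw [div_pow, div_mul_cancel₀ _ hdn]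
      · refine Finset.sum_congr rfl fun i hi => ?_
        have hi' : i < n := Finset.mem_range.1 hi
        have : d z ^ n = d z ^ (i + 1) * d z ^ (n - 1 - i) := by
          rw [← pow_add]; congr 1; omega
        simp only [hg_def]
        rw [this, div_pow]
        field_simp
    rw [h0] at key
    exact (mul_eq_zero.1 key).resolve_right hdn
  -- differentiability of `hh`
  have hhdiff : DifferentiableOn ℂ hh upperHalfPlaneSet := by
    intro z₀ hz₀
    apply DifferentiableAt.differentiableWithinAt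
    have hz₀' : 0 < z₀.im := hz₀
    -- the good neighbourhood
    have hbd : ∀ᶠ w in 𝓝 z₀, ∀ i ∈ Finset.range n,
        ‖(C i ∘ ofComplex) w‖ ≤ ‖(C i ∘ ofComplex) z₀‖ + 1 := by
      rw [Filter.eventually_all_finset]
      intro i _
      have := (hCc i z₀ hz₀').norm
      exact this.eventually_le_const (lt_add_one _) |>.mono fun w hw => hw
    have hne : ∀ᶠ w in 𝓝 z₀, w ≠ z₀ → d w ≠ 0 := eventually_nhdsWithin_iff.1 (hiso z₀ hz₀')
    set s : Set ℂ := {w | 0 < w.im ∧ (w ≠ z₀ → d w ≠ 0) ∧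
      ∀ i ∈ Finset.range n, ‖(C i ∘ ofComplex) w‖ ≤ ‖(C i ∘ ofComplex) z₀‖ + 1} with hs_def
    have hs : s ∈ 𝓝 z₀ := by
      filter_upwards [hUnhds z₀ hz₀', hne, hbd] with w h1 h2 h3
      exact ⟨h1, h2, h3⟩
    have hgs : DifferentiableOn ℂ g (s \ {z₀}) := by
      intro w hw
      exact (hgdiff w hw.1.1 (hw.1.2.1 hw.2)).differentiableWithinAt
    have hbdd : BddAbove (norm ∘ g '' (s \ {z₀})) := by
      refine ⟨1 + ∑ i ∈ Finset.range n, (‖(C i ∘ ofComplex) z₀‖ + 1), ?_⟩
      rintro _ ⟨w, hw, rfl⟩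
      have h1 := norm_le_of_monic_rel (g w) n (fun i => (C i ∘ ofComplex) w)
        (hrel w hw.1.1 (hw.1.2.1 hw.2))
      refine h1.trans ?_
      gcongr with i hi
      exact hw.1.2.2 i hi
    have hR := Complex.differentiableOn_update_limUnder_of_bddAbove hs hgs hbdd
    have hEq : hh =ᶠ[𝓝 z₀] Function.update g z₀ (limUnder (𝓝[≠] z₀) g) := by
      filter_upwards [hs] with w hw
      by_cases hwz : w = z₀
      · subst hwz; simp [hh_def]
      · rw [Function.update_of_ne hwz]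
        exact hval w hw.1 (hw.2.1 hwz)
    exact (hR.differentiableAt hs).congr_of_eventuallyEq hEq
  -- the function on `ℍ`
  refine ⟨fun τ => hh τ, ?_, ?_⟩
  · rw [mdifferentiable_iff]
    refine hhdiff.congr fun z hz => ?_
    simp [Function.comp, ofComplex_apply_of_im_pos hz]
  · -- `f * A = B` via the domain property
    have hfd : MDiff (fun τ : ℍ => hh τ) := by
      rw [mdifferentiable_iff]
      refine hhdiff.congr fun z hz => ?_
      simp [Function.comp, ofComplex_apply_of_im_pos hz]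
    have hprod : ((fun τ : ℍ => hh τ) * A - B) * A = 0 := by
      ext τ
      simp only [Pi.mul_apply, Pi.sub_apply, Pi.zero_apply]
      by_cases hAτ : A τ = 0
      · rw [hAτ, mul_zero]
      · have hdτ : d τ ≠ 0 := by simpa [hd_def, Function.comp, ofComplex_apply] using hAτ
        have := hval τ τ.im_pos hdτ
        rw [this]
        simp only [hg_def, ha_def, hd_def, Function.comp, ofComplex_apply]
        rw [div_mul_cancel₀ _ hAτ, sub_self, zero_mul]
    rcases (UpperHalfPlane.mul_eq_zero_iff ((hfd.mul hAd).sub hBd) hAd).1 hprod with h1 | h1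
    · intro z
      have := congrFun h1 z
      simpa [sub_eq_zero] using this
    · exact absurd h1 hA


section Extend

variable {𝒢 : Subgroup (GL (Fin 2) ℝ)} [𝒢.IsArithmetic] [𝒢.HasDetOne]

/-- **Package B** (analytic extension): an "integral" ratio of modular forms is a cusp form. -/
theorem extend_general {k w : ℤ} (A : ModularForm 𝒢 w) (B : ModularForm 𝒢 (w + k)) (hA : A ≠ 0)
    (n : ℕ) (C : (i : ℕ) → CuspForm 𝒮ℒ (k * (i + 1)))
    (h : ∀ z : ℍ, B z ^ n + ∑ i ∈ Finset.range n, C i z * A z ^ (i + 1) * B z ^ (n - 1 - i) = 0) :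
    ∃ f : CuspForm 𝒢 k, ∀ z : ℍ, f z * A z = B z := by
  have hA' : (A : ℍ → ℂ) ≠ 0 := fun h0 => hA (DFunLike.coe_injective (by simpa using h0))
  obtain ⟨f₀, hf₀, hfAB⟩ := exists_mdiff_quotient (ModularFormClass.holo A) (ModularFormClass.holo B)
    hA' n (fun i => (C i : ℍ → ℂ)) (fun i => (CuspFormClass.holo (C i)).continuous) h
  -- the monic relation for `f₀`
  have hrel : ∀ z : ℍ, f₀ z ^ n + ∑ i ∈ Finset.range n, C i z * f₀ z ^ (n - 1 - i) = 0 := by
    have hRd : MDiff (f₀ ^ n + ∑ i ∈ Finset.range n, (C i : ℍ → ℂ) * f₀ ^ (n - 1 - i)) :=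
      (hf₀.pow n).add (MDifferentiable.sum fun i _ =>
        (CuspFormClass.holo (C i)).mul (hf₀.pow _))
    have hAn : MDiff ((A : ℍ → ℂ) ^ n) := (ModularFormClass.holo A).pow n
    have hprod : (f₀ ^ n + ∑ i ∈ Finset.range n, (C i : ℍ → ℂ) * f₀ ^ (n - 1 - i)) *
        ((A : ℍ → ℂ) ^ n) = 0 := by
      ext z
      simp only [Pi.mul_apply, Pi.add_apply, Pi.pow_apply, Pi.zero_apply, Finset.sum_apply]
      rw [← h z, add_mul, Finset.sum_mul, ← hfAB z]
      congr 1
      · ring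
      · refine Finset.sum_congr rfl fun i hi => ?_
        have hi' : i < n := Finset.mem_range.1 hi
        have : A z ^ n = A z ^ (i + 1) * A z ^ (n - 1 - i) := by
          rw [← pow_add]; congr 1; omega
        rw [this]; ring
    rcases (UpperHalfPlane.mul_eq_zero_iff hRd hAn).1 hprod with h1 | h1
    · intro z
      have := congrFun h1 z
      simpa only [Pi.add_apply, Pi.pow_apply, Finset.sum_apply, Pi.mul_apply, Pi.zero_apply]
        using this
    · exfalso
      apply hA'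
      ext z
      have := congrFun h1 z
      simp only [Pi.pow_apply, Pi.zero_apply] at this
      exact pow_eq_zero_iff (by
        rintro rfl
        simp at this) |>.1 this
  -- slash invariance
  have hslash : ∀ γ ∈ 𝒢, f₀ ∣[k] γ = f₀ := by
    intro γ hγ
    have hdet : |(γ.det : ℝ)| = 1 := by
      have := Subgroup.HasDetOne.det_eq hγ
      simp [this]
    have hG : MDiff (f₀ ∣[k] γ - f₀) := (hf₀.slash k γ).sub hf₀
    have hfAB' : f₀ * (A : ℍ → ℂ) = B := funext hfAB
    have h1 : (f₀ * (A : ℍ → ℂ)) ∣[k + w] γ = f₀ ∣[k] γ * (A : ℍ → ℂ) := by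
      rw [ModularForm.mul_slash, hdet, one_smul,
        SlashInvariantFormClass.slash_action_eq A γ hγ]
    have h2 : (f₀ * (A : ℍ → ℂ)) ∣[k + w] γ = B := by
      rw [hfAB', add_comm]
      exact SlashInvariantFormClass.slash_action_eq B γ hγ
    have hprod : (f₀ ∣[k] γ - f₀) * (A : ℍ → ℂ) = 0 := by
      rw [sub_mul, ← h1, h2, hfAB', sub_self]
    rcases (UpperHalfPlane.mul_eq_zero_iff hG (ModularFormClass.holo A)).1 hprod with h3 | h3
    · exact sub_eq_zero.1 h3
    · exact absurd h3 hA'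
  -- the translates satisfy the same monic relation
  have hrelγ : ∀ (γ : SL(2, ℤ)) (z : ℍ), (f₀ ∣[k] γ) z ^ n +
      ∑ i ∈ Finset.range n, C i z * (f₀ ∣[k] γ) z ^ (n - 1 - i) = 0 := by
    intro γ z
    set j : ℂ := denom (Matrix.SpecialLinearGroup.toGL
      ((Matrix.SpecialLinearGroup.map (Int.castRingHom ℝ)) γ)) ↑z with hj_def
    have hj : j ≠ 0 := denom_ne_zero _ _
    set J : ℂ := j ^ k with hJ_def
    have hJ : J ≠ 0 := zpow_ne_zero _ hj
    have hsl : (f₀ ∣[k] γ) z = f₀ (γ • z) * j ^ (-k) := ModularForm.SL_slash_apply f₀ γ z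
    have hf : f₀ (γ • z) = (f₀ ∣[k] γ) z * J := by
      rw [hsl, hJ_def, mul_assoc, ← zpow_add₀ hj]; simp
    have hCi : ∀ i : ℕ, C i (γ • z) = C i z * J ^ (i + 1) := by
      intro i
      have hmem : Matrix.SpecialLinearGroup.mapGL ℝ γ ∈ 𝒮ℒ := ⟨γ, rfl⟩
      have h1 : (C i : ℍ → ℂ) ∣[k * (i + 1)] γ = C i := by
        rw [ModularForm.SL_slash]
        exact SlashInvariantFormClass.slash_action_eq (C i) _ hmem
      have h2 := congrFun h1 z
      rw [ModularForm.SL_slash_apply] at h2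
      have h3 : J ^ (i + 1) = j ^ (k * (i + 1)) := by
        rw [hJ_def, ← zpow_natCast, ← zpow_mul]; push_cast; rfl
      rw [h3, ← h2, mul_assoc, ← zpow_add₀ hj]; simp
    have h0 := hrel (γ • z)
    rw [hf] at h0
    simp only [hCi] at h0
    have key : ((f₀ ∣[k] γ) z ^ n + ∑ i ∈ Finset.range n, C i z * (f₀ ∣[k] γ) z ^ (n - 1 - i)) * J ^ n
        = ((f₀ ∣[k] γ) z * J) ^ n + ∑ i ∈ Finset.range n,
            C i z * J ^ (i + 1) * ((f₀ ∣[k] γ) z * J) ^ (n - 1 - i) := by
      rw [add_mul, Finset.sum_mul, mul_pow]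
      congr 1
      refine Finset.sum_congr rfl fun i hi => ?_
      have hi' : i < n := Finset.mem_range.1 hi
      have : J ^ n = J ^ (i + 1) * J ^ (n - 1 - i) := by
        rw [← pow_add]; congr 1; omega
      rw [this, mul_pow]; ring
    rw [h0] at key
    exact (mul_eq_zero.1 key).resolve_right (pow_ne_zero _ hJ)
  have hzero : ∀ γ : SL(2, ℤ), IsZeroAtImInfty (f₀ ∣[k] γ) := by
    intro γ
    have hCz : ∀ i, Tendsto (fun z : ℍ => ‖C i z‖) atImInfty (𝓝 0) := fun i => by
      have := (CuspFormClass.zero_at_infty (C i))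
      simpa using (this : Tendsto (C i) atImInfty (𝓝 0)).norm
    have hsum : Tendsto (fun z : ℍ => ∑ i ∈ Finset.range n, ‖C i z‖) atImInfty (𝓝 0) := by
      have := tendsto_finsetSum (Finset.range n) (fun i _ => hCz i)
      simpa using this
    show Tendsto (f₀ ∣[k] γ) atImInfty (𝓝 0)
    rw [Metric.tendsto_nhds]
    intro ε hε
    set ε' : ℝ := min (ε / 2) 1 with hε'
    have hε'pos : 0 < ε' := lt_min (half_pos hε) one_pos
    have hev : ∀ᶠ z in atImInfty, ∑ i ∈ Finset.range n, ‖C i z‖ ≤ ε' ^ n :=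
      hsum.eventually_le_const (pow_pos hε'pos n)
    filter_upwards [hev] with z hz
    have := norm_le_of_monic_rel_small ((f₀ ∣[k] γ) z) n (fun i => C i z) hε'pos (min_le_right _ _)
      hz (hrelγ γ z)
    rw [dist_zero_right]
    calc ‖(f₀ ∣[k] γ) z‖ ≤ ε' := this
      _ ≤ ε / 2 := min_le_left _ _
      _ < ε := half_lt_self hε
  -- bundle
  refine ⟨{ toFun := f₀
            slash_action_eq' := hslash
            holo' := hf₀
            zero_at_cusps' := ?_ }, hfAB⟩
  intro c hc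
  have hc' : IsCusp c 𝒮ℒ := (Subgroup.IsArithmetic.isCusp_iff_isCusp_SL2Z 𝒢).1 hc
  rw [OnePoint.isZeroAt_iff_forall_SL2Z hc']
  intro γ _
  exact hzero γ

/-- **Package B**, in the form of the skeleton (`NOTES/items/22_skeleton.lean.txt`). -/
theorem extend (N : ℕ) [NeZero N] {k w : ℤ} (A : ModularForm (CongruenceSubgroup.Gamma0 N) w)
    (B : ModularForm (CongruenceSubgroup.Gamma0 N) (w + k)) (hA : A ≠ 0)
    (n : ℕ) (C : (i : ℕ) → CuspForm 𝒮ℒ (k * (i + 1)))
    (h : ∀ z : ℍ, B z ^ n + ∑ i ∈ Finset.range n, C i z * A z ^ (i + 1) * B z ^ (n - 1 - i) = 0) :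
    ∃ f : CuspForm (CongruenceSubgroup.Gamma0 N) k, ∀ z : ℍ, f z * A z = B z :=
  extend_general A B hA n C h

end Extend

end Fermat.Agent.S23
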