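import Mathlib

/-!
# S23, package E: a cusp form on a finite-index subgroup is integral over level one,
with cuspidal coefficients (elementary symmetric functions of its translates).
-/

set_option autoImplicit false

open UpperHalfPlane ModularForm SlashInvariantForm
open scoped MatrixGroups ModularForm Manifold Topology

namespace Fermat.Agent.S23

section General

variable {𝒢 : Subgroup (GL (Fin 2) ℝ)} {F : Type*} [FunLike F ℍ ℂ] {k : ℤ}

local notation "𝒬" => 𝒮ℒ ⧸ (𝒢.subgroupOf 𝒮ℒ)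

/-- `j`-th elementary symmetric function of the `𝒮ℒ`-translates of `f`. -/
noncomputable def E_esymm [𝒢.IsFiniteRelIndex 𝒮ℒ] (f : F) [SlashInvariantFormClass F 𝒢 k]
    (j : ℕ) : ℍ → ℂ :=
  letI := Fintype.ofFinite 𝒬
  ∑ S ∈ (Finset.univ : Finset 𝒬).powersetCard j, ∏ q ∈ S, quotientFunc f q

variable [𝒢.IsFiniteRelIndex 𝒮ℒ]

theorem E_esymm_slash (f : F) [SlashInvariantFormClass F 𝒢 k] (j : ℕ)
    (h : GL (Fin 2) ℝ) (hh : h ∈ 𝒮ℒ) :
    E_esymm f j ∣[k * j] h = E_esymm f j := by
  classical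
  letI := Fintype.ofFinite 𝒬
  have hdet : |h.det.val| = 1 := Subgroup.HasDetPlusMinusOne.abs_det hh
  unfold E_esymm
  rw [SlashAction.sum_slash]
  have key : ∀ S ∈ (Finset.univ : Finset 𝒬).powersetCard j,
      (∏ q ∈ S, quotientFunc f q) ∣[k * j] h =
        ∏ q ∈ S.map (MulAction.toPerm (⟨h, hh⟩ : 𝒮ℒ)⁻¹).toEmbedding, quotientFunc f q := by
    intro S hS
    have hcard : S.card = j := (Finset.mem_powersetCard.1 hS).2
    rw [← hcard, ModularForm.prod_slash, hdet, one_zpow, one_smul, Finset.prod_map]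
    refine Finset.prod_congr rfl fun q _ => ?_
    rw [quotientFunc_smul f hh]
    rfl
  rw [Finset.sum_congr rfl key]
  refine Finset.sum_bij (fun S _ => S.map (MulAction.toPerm (⟨h, hh⟩ : 𝒮ℒ)⁻¹).toEmbedding)
    ?_ ?_ ?_ ?_
  · intro S hS
    rw [Finset.mem_powersetCard] at hS ⊢
    exact ⟨Finset.subset_univ _, by rw [Finset.card_map]; exact hS.2⟩
  · intro S _ T _ hST
    exact Finset.map_injective _ hST
  · intro T hT
    refine ⟨T.map (MulAction.toPerm (⟨h, hh⟩ : 𝒮ℒ)).toEmbedding, ?_, ?_⟩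
    · rw [Finset.mem_powersetCard] at hT ⊢
      exact ⟨Finset.subset_univ _, by rw [Finset.card_map]; exact hT.2⟩
    · ext q
      simp
  · intro S _
    rfl

omit [𝒢.IsFiniteRelIndex 𝒮ℒ] in
theorem E_quotientFunc_mdiff (f : F) [ModularFormClass F 𝒢 k] (q : 𝒬) :
    MDiff (quotientFunc f q) := by
  induction q using Quotient.inductionOn with
  | h r => exact (ModularForm.translate f r.val⁻¹).holo'

theorem E_esymm_mdiff (f : F) [ModularFormClass F 𝒢 k] (j : ℕ) : MDiff (E_esymm f j) := by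
  classical
  letI := Fintype.ofFinite 𝒬
  unfold E_esymm
  exact .sum fun S _ => .prod fun q _ => E_quotientFunc_mdiff f q

theorem E_quotientFunc_isZeroAt (f : F) [CuspFormClass F 𝒢 k] (q : 𝒬)
    {c : OnePoint ℝ} (hc : IsCusp c 𝒮ℒ) (γ : GL (Fin 2) ℝ) (hγ : γ • OnePoint.infty = c) :
    IsZeroAtImInfty (quotientFunc f q ∣[k] γ) := by
  induction q using Quotient.inductionOn with
  | h r =>
    obtain ⟨r, hr⟩ := r
    refine (CuspForm.translate f _).zero_at_cusps' ?_ γ hγ
    simpa using hc.of_isFiniteRelIndex_conj hr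

theorem E_esymm_isZeroAt (f : F) [CuspFormClass F 𝒢 k] (j : ℕ) (hj : j ≠ 0)
    {c : OnePoint ℝ} (hc : IsCusp c 𝒮ℒ) : c.IsZeroAt (E_esymm f j) (k * j) := by
  classical
  letI := Fintype.ofFinite 𝒬
  intro γ hγ
  have key : ∀ S ∈ (Finset.univ : Finset 𝒬).powersetCard j,
      IsZeroAtImInfty ((∏ q ∈ S, quotientFunc f q) ∣[k * j] γ) := by
    intro S hS
    have hcard : S.card = j := (Finset.mem_powersetCard.1 hS).2
    have hne : S.Nonempty := Finset.card_pos.1 (by omega)
    rw [← hcard, ModularForm.prod_slash]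
    rw [IsZeroAtImInfty, Filter.ZeroAtFilter]
    have h1 : Filter.Tendsto (fun z => ∏ q ∈ S, (quotientFunc f q ∣[k] γ) z) atImInfty
        (𝓝 (∏ _q ∈ S, (0 : ℂ))) :=
      tendsto_finsetProd S fun q _ => E_quotientFunc_isZeroAt f q hc γ hγ
    obtain ⟨q₀, hq₀⟩ := hne
    rw [Finset.prod_eq_zero hq₀ rfl] at h1
    have h2 := h1.const_smul (|γ.det.val| ^ ((S.card : ℤ) - 1))
    rw [smul_zero] at h2
    convert h2 using 1
    ext z
    simp [Finset.prod_apply]
  unfold E_esymm
  rw [SlashAction.sum_slash]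
  rw [IsZeroAtImInfty, Filter.ZeroAtFilter]
  have h3 : Filter.Tendsto (fun z => ∑ S ∈ (Finset.univ : Finset 𝒬).powersetCard j,
      ((∏ q ∈ S, quotientFunc f q) ∣[k * j] γ) z) atImInfty
      (𝓝 (∑ _S ∈ (Finset.univ : Finset 𝒬).powersetCard j, (0 : ℂ))) :=
    tendsto_finsetSum _ fun S hS => key S hS
  rw [Finset.sum_const_zero] at h3
  convert h3 using 1
  ext z
  simp [Finset.sum_apply]

/-- The `(i+1)`-st elementary symmetric function of the translates, as a level one cusp form. -/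
noncomputable def E_cusp (f : F) [CuspFormClass F 𝒢 k] (i : ℕ) : CuspForm 𝒮ℒ (k * (i + 1)) where
  toFun := E_esymm f (i + 1)
  slash_action_eq' h hh := by
    have hw : k * ((i : ℤ) + 1) = k * ((i + 1 : ℕ) : ℤ) := by push_cast; ring
    rw [hw]
    exact E_esymm_slash f (i + 1) h hh
  holo' := E_esymm_mdiff f (i + 1)
  zero_at_cusps' hc := by
    have hw : k * ((i : ℤ) + 1) = k * ((i + 1 : ℕ) : ℤ) := by push_cast; ring
    rw [hw]
    exact E_esymm_isZeroAt f (i + 1) (Nat.succ_ne_zero i) hc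

theorem E_cusp_apply (f : F) [CuspFormClass F 𝒢 k] (i : ℕ) (z : ℍ) :
    E_cusp f i z = E_esymm f (i + 1) z := rfl

/-- Vieta: `f` is a root of the polynomial whose coefficients are the elementary symmetric
functions of its translates. -/
theorem E_vieta (f : F) [SlashInvariantFormClass F 𝒢 k] (z : ℍ) :
    f z ^ Nat.card 𝒬 + ∑ i ∈ Finset.range (Nat.card 𝒬),
      ((-1 : ℂ) ^ (i + 1) * E_esymm f (i + 1) z) * f z ^ (Nat.card 𝒬 - 1 - i) = 0 := by
  classical
  letI := Fintype.ofFinite 𝒬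
  set m : Multiset ℂ := (Finset.univ : Finset 𝒬).val.map fun q => quotientFunc f q z with hm
  have hcard : Multiset.card m = Nat.card 𝒬 := by
    rw [hm, Multiset.card_map, Finset.card_val, Finset.card_univ, Nat.card_eq_fintype_card]
  have hes : ∀ j, m.esymm j = E_esymm f j z := by
    intro j
    rw [hm, Finset.esymm_map_val]
    simp [E_esymm, Finset.sum_apply, Finset.prod_apply]
  have hmem : f z ∈ m := by
    rw [hm, Multiset.mem_map]
    exact ⟨⟦1⟧, Finset.mem_univ _, by simp⟩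
  have hroot : Polynomial.eval (f z) (m.map fun t => Polynomial.X - Polynomial.C t).prod = 0 := by
    rw [Polynomial.eval_multiset_prod]
    apply Multiset.prod_eq_zero
    rw [Multiset.mem_map]
    refine ⟨Polynomial.X - Polynomial.C (f z), Multiset.mem_map.2 ⟨f z, hmem, rfl⟩, by simp⟩
  rw [Multiset.prod_X_sub_X_eq_sum_esymm, Polynomial.eval_finsetSum, hcard,
    Finset.sum_range_succ'] at hroot
  simp only [Polynomial.eval_mul, Polynomial.eval_pow, Polynomial.eval_neg, Polynomial.eval_one,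
    Polynomial.eval_C, Polynomial.eval_X, hes, pow_zero, one_mul, Nat.sub_zero] at hroot
  rw [add_comm] at hroot
  have hE0 : E_esymm f 0 z = 1 := by
    simp [E_esymm, Finset.sum_apply, Finset.prod_apply]
  rw [hE0, one_mul] at hroot
  rw [← hroot]
  congr 1
  refine Finset.sum_congr rfl fun i _ => ?_
  rw [Nat.sub_sub, add_comm 1 i, mul_assoc]

end General

section Gamma0

open CongruenceSubgroup

/-- **E** integrality of a cusp form over level one, with cuspidal coefficients
(`C i = (-1)^(i+1) e_{i+1}(f|γ_q)`, `n` = index). -/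
theorem integrality (N : ℕ) [NeZero N] {k : ℤ} (f : CuspForm (CongruenceSubgroup.Gamma0 N) k) :
    ∃ (n : ℕ) (C : (i : ℕ) → CuspForm 𝒮ℒ (k * (i + 1))),
      ∀ z : ℍ, f z ^ n + ∑ i ∈ Finset.range n, C i z * f z ^ (n - 1 - i) = 0 := by
  refine ⟨Nat.card (𝒮ℒ ⧸ (((Gamma0 N).map (Matrix.SpecialLinearGroup.mapGL ℝ)).subgroupOf 𝒮ℒ)),
    fun i => ((-1 : ℂ) ^ (i + 1)) • E_cusp f i, fun z => ?_⟩
  have := E_vieta f z
  simpa [E_cusp_apply] using this

end Gamma0

end Fermat.Agent.S23
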