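import Fermat.Agent.S23.Final
import Fermat.Agent.S23.Extend
import Fermat.Agent.S23.Integrality

/-!
# S23, package S: `Aut(ℂ)`-stability of the `q`-expansions of cusp forms on `Γ₀(N)`

`conj_stable_of_ratio` proves the skeleton statement `conj_stable` from the skeleton statement
`ratio` (package I), using `integrality` (E), `extend` (B) and `levelOne_mem_intSpan` (L1).
-/

set_option autoImplicit false

open UpperHalfPlane ModularForm ModularFormClass
open scoped MatrixGroups Manifold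

namespace Fermat.Agent.S23

/-- `PowerSeries.map σ` fixes integral power series. -/
lemma S_map_of_isIntPS (σ : ℂ ≃+* ℂ) {P : PowerSeries ℂ} (hP : IsIntPS P) :
    P.map (σ : ℂ →+* ℂ) = P := by
  ext n
  obtain ⟨m, hm⟩ := hP n
  rw [PowerSeries.coeff_map, hm]
  simp

lemma S_map_smul (σ : ℂ ≃+* ℂ) (c : ℂ) (P : PowerSeries ℂ) :
    (c • P).map (σ : ℂ →+* ℂ) = σ c • P.map (σ : ℂ →+* ℂ) := by
  ext n
  simp

lemma S_map_injective (σ : ℂ ≃+* ℂ) :
    Function.Injective (PowerSeries.map (σ : ℂ →+* ℂ)) := by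
  intro P Q h
  ext n
  have := congrArg (PowerSeries.coeff n) h
  rw [PowerSeries.coeff_map, PowerSeries.coeff_map] at this
  exact σ.injective this

/-- Conjugation of members of the integral span. -/
theorem S_conj_intSpan {Γ : Subgroup (GL (Fin 2) ℝ)} [Γ.HasDetOne]
    (hΓ : (1 : ℝ) ∈ Γ.strictPeriods) (σ : ℂ ≃+* ℂ) {w : ℤ} {A : ModularForm Γ w}
    (hA : A ∈ IntSpan Γ w) :
    ∃ A' : ModularForm Γ w, A' ∈ IntSpan Γ w ∧
      qExpansion 1 A' = (qExpansion 1 A).map (σ : ℂ →+* ℂ) := by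
  unfold IntSpan at hA
  induction hA using Submodule.span_induction with
  | mem x hx => exact ⟨x, Submodule.subset_span hx, (S_map_of_isIntPS σ hx).symm⟩
  | zero =>
    refine ⟨0, Submodule.zero_mem _, ?_⟩
    have h0 : qExpansion 1 (⇑(0 : ModularForm Γ w)) = 0 := by
      rw [FunLike.coe_zero]; exact qExpansion_zero 1
    rw [h0, map_zero]
  | add x y _ _ hx hy =>
    obtain ⟨x', hx'm, hx'⟩ := hx
    obtain ⟨y', hy'm, hy'⟩ := hy
    refine ⟨x' + y', Submodule.add_mem _ hx'm hy'm, ?_⟩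
    rw [FunLike.coe_add, FunLike.coe_add, ModularForm.qExpansion_add one_pos hΓ x' y',
      ModularForm.qExpansion_add one_pos hΓ x y, map_add, hx', hy']
  | smul c x _ hx =>
    obtain ⟨x', hx'm, hx'⟩ := hx
    refine ⟨σ c • x', Submodule.smul_mem _ _ hx'm, ?_⟩
    rw [FunLike.coe_smul, FunLike.coe_smul, ModularForm.qExpansion_smul one_pos hΓ (σ c) x',
      ModularForm.qExpansion_smul one_pos hΓ c x, S_map_smul, hx']


/-! ### A class of functions closed under ring operations on which `qExpansion` is faithful -/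

/-- `1`-periodic, holomorphic and bounded at `i∞`. -/
def S_QGood (f : ℍ → ℂ) : Prop :=
  Function.Periodic (f ∘ ofComplex) 1 ∧ MDiff f ∧ IsBoundedAtImInfty f

lemma S_QGood.fGood {f : ℍ → ℂ} (hf : S_QGood f) : FGood f :=
  analyticAt_cuspFunction_zero one_pos hf.1 hf.2.1 hf.2.2

lemma S_QGood.eq_zero {f : ℍ → ℂ} (hf : S_QGood f) (h : qExpansion 1 f = 0) : f = 0 :=
  (UpperHalfPlane.qExpansion_eq_zero_iff one_pos hf.1 hf.2.1 hf.2.2).1 h

lemma S_QGood.of_modularForm {Γ : Subgroup (GL (Fin 2) ℝ)} {k : ℤ} {F : Type*} [FunLike F ℍ ℂ]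
    [ModularFormClass F Γ k] (hΓ : (1 : ℝ) ∈ Γ.strictPeriods) (f : F) : S_QGood (f : ℍ → ℂ) :=
  have : Fact (IsCusp OnePoint.infty Γ) := ⟨Γ.isCusp_of_mem_strictPeriods one_pos hΓ⟩
  ⟨SlashInvariantFormClass.periodic_comp_ofComplex f hΓ, ModularFormClass.holo f,
    ModularFormClass.bdd_at_infty f⟩

lemma S_QGood.mul {f g : ℍ → ℂ} (hf : S_QGood f) (hg : S_QGood g) : S_QGood (f * g) :=
  ⟨hf.1.mul hg.1, hf.2.1.mul hg.2.1, hf.2.2.mul hg.2.2⟩

lemma S_QGood.add {f g : ℍ → ℂ} (hf : S_QGood f) (hg : S_QGood g) : S_QGood (f + g) :=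
  ⟨hf.1.add hg.1, hf.2.1.add hg.2.1, hf.2.2.add hg.2.2⟩

lemma S_QGood.one : S_QGood (1 : ℍ → ℂ) :=
  ⟨fun _ => rfl, mdifferentiable_const, Filter.const_boundedAtFilter _ (1 : ℂ)⟩

lemma S_QGood.zero : S_QGood (0 : ℍ → ℂ) :=
  ⟨fun _ => rfl, mdifferentiable_const, Filter.const_boundedAtFilter _ (0 : ℂ)⟩

lemma S_QGood.pow {f : ℍ → ℂ} (hf : S_QGood f) (n : ℕ) : S_QGood (f ^ n) := by
  induction n with
  | zero => rw [pow_zero]; exact S_QGood.one
  | succ n ih => rw [pow_succ]; exact ih.mul hf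

lemma S_QGood.sum {ι : Type*} (s : Finset ι) {f : ι → ℍ → ℂ} (hf : ∀ i ∈ s, S_QGood (f i)) :
    S_QGood (∑ i ∈ s, f i) := by
  classical
  induction s using Finset.induction_on with
  | empty => rw [Finset.sum_empty]; exact S_QGood.zero
  | insert a s ha ih =>
    rw [Finset.sum_insert ha]
    exact (hf a (Finset.mem_insert_self a s)).add
      (ih fun i hi => hf i (Finset.mem_insert_of_mem hi))

/-- The "relation" function attached to `a`, `b`, `c`. -/
def S_rel (n : ℕ) (a b : ℍ → ℂ) (c : ℕ → ℍ → ℂ) : ℍ → ℂ :=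
  b ^ n + ∑ i ∈ Finset.range n, c i * a ^ (i + 1) * b ^ (n - 1 - i)

lemma S_rel_apply (n : ℕ) (a b : ℍ → ℂ) (c : ℕ → ℍ → ℂ) (z : ℍ) :
    S_rel n a b c z = b z ^ n + ∑ i ∈ Finset.range n, c i z * a z ^ (i + 1) * b z ^ (n - 1 - i) := by
  simp [S_rel, Finset.sum_apply]

lemma S_rel_qGood (n : ℕ) {a b : ℍ → ℂ} {c : ℕ → ℍ → ℂ} (ha : S_QGood a) (hb : S_QGood b)
    (hc : ∀ i, S_QGood (c i)) : S_QGood (S_rel n a b c) :=
  (hb.pow n).add (S_QGood.sum _ fun i _ => ((hc i).mul (ha.pow _)).mul (hb.pow _))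

lemma S_qExpansion_rel (n : ℕ) {a b : ℍ → ℂ} {c : ℕ → ℍ → ℂ} (ha : FGood a) (hb : FGood b)
    (hc : ∀ i, FGood (c i)) :
    qExpansion 1 (S_rel n a b c) = qExpansion 1 b ^ n + ∑ i ∈ Finset.range n,
      qExpansion 1 (c i) * qExpansion 1 a ^ (i + 1) * qExpansion 1 b ^ (n - 1 - i) := by
  unfold S_rel
  have hterm : ∀ i ∈ Finset.range n, FGood (c i * a ^ (i + 1) * b ^ (n - 1 - i)) :=
    fun i _ => ((hc i).mul (ha.pow _)).mul (hb.pow _)
  rw [qExpansion_add (hb.pow n) (FGood.sum _ hterm), qExpansion_pow_of_FGood hb,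
    qExpansion_sum_of_FGood _ hterm]
  congr 1
  refine Finset.sum_congr rfl fun i _ => ?_
  rw [qExpansion_mul ((hc i).mul (ha.pow _)) (hb.pow _), qExpansion_mul (hc i) (ha.pow _),
    qExpansion_pow_of_FGood ha, qExpansion_pow_of_FGood hb]

/-- Multiplying the monic relation for `f` by `A ^ n`. -/
lemma S_rel_of_ratio {f a b : ℂ} (hfab : f * a = b) (n : ℕ) (c : ℕ → ℂ)
    (h : f ^ n + ∑ i ∈ Finset.range n, c i * f ^ (n - 1 - i) = 0) :
    b ^ n + ∑ i ∈ Finset.range n, c i * a ^ (i + 1) * b ^ (n - 1 - i) = 0 := by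
  have h2 : b ^ n + ∑ i ∈ Finset.range n, c i * a ^ (i + 1) * b ^ (n - 1 - i)
      = a ^ n * (f ^ n + ∑ i ∈ Finset.range n, c i * f ^ (n - 1 - i)) := by
    rw [mul_add, Finset.mul_sum, ← hfab, mul_pow]
    congr 1
    · ring
    · refine Finset.sum_congr rfl fun i hi => ?_
      have hi' : i < n := Finset.mem_range.1 hi
      have hn : n = (i + 1) + (n - 1 - i) := by omega
      rw [mul_pow]
      conv_rhs => rw [hn, pow_add]
      have : i + 1 + (n - 1 - i) - 1 - i = n - 1 - i := by omega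
      rw [this]
      ring
  rw [h2, h, mul_zero]

section Main

variable (N : ℕ) [NeZero N] {k : ℤ}

/-- **S** (`Aut(ℂ)`-stability), with package I (`ratio`) as a hypothesis. -/
theorem conj_stable_of_ratio
    (h_ratio : ∀ f : ModularForm (CongruenceSubgroup.Gamma0 N) k,
      ∃ (w : ℤ) (A : ModularForm (CongruenceSubgroup.Gamma0 N) w)
        (B : ModularForm (CongruenceSubgroup.Gamma0 N) (w + k)),
        A ∈ IntSpan _ w ∧ B ∈ IntSpan _ (w + k) ∧ A ≠ 0 ∧ ∀ z : ℍ, f z * A z = B z)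
    (σ : ℂ ≃+* ℂ) (f : CuspForm (CongruenceSubgroup.Gamma0 N) k) :
    ∃ f' : CuspForm (CongruenceSubgroup.Gamma0 N) k,
      qExpansion 1 f' = (qExpansion 1 f).map (σ : ℂ →+* ℂ) := by
  have hΓ := final_hΓ N
  have hΓ1 : (1 : ℝ) ∈ (𝒮ℒ).strictPeriods := one_mem_strictPeriods_SL'
  -- step 1: the ratio
  obtain ⟨w, A, B, hA, hB, hA0, hfAB⟩ := h_ratio (CuspForm.toModularFormₗ f)
  replace hfAB : ∀ z : ℍ, f z * A z = B z := hfAB
  -- step 2: conjugates of `A`, `B`
  obtain ⟨A', -, hA'⟩ := S_conj_intSpan hΓ σ hA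
  obtain ⟨B', -, hB'⟩ := S_conj_intSpan hΓ σ hB
  -- step 3: integrality and the conjugates of the coefficients
  obtain ⟨n, C, hrel⟩ := integrality N f
  have hM : ∀ i : ℕ, ∃ M : ModularForm 𝒮ℒ (k * (i + 1)),
      qExpansion 1 M = (qExpansion 1 (C i)).map (σ : ℂ →+* ℂ) := fun i => by
    obtain ⟨M, -, hM⟩ := S_conj_intSpan hΓ1 σ
      (levelOne_mem_intSpan _ (CuspForm.toModularFormₗ (C i)))
    exact ⟨M, hM⟩
  choose M hM using hM
  have hC0 : ∀ i : ℕ, (qExpansion 1 (C i)).coeff 0 = 0 := fun i =>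
    (ModularForm.isCuspForm_iff_coeffZero_eq_zero (CuspForm.toModularFormₗ (C i))).1
      (CuspForm.isCuspForm_toModularFormₗ (C i))
  have hM0 : ∀ i : ℕ, (qExpansion 1 (M i)).coeff 0 = 0 := fun i => by
    rw [hM i, PowerSeries.coeff_map, hC0 i, map_zero]
  set C' : (i : ℕ) → CuspForm 𝒮ℒ (k * (i + 1)) := fun i => ModularForm.toCuspForm (M i) (hM0 i)
    with hC'def
  have hC' : ∀ i : ℕ, qExpansion 1 (C' i) = (qExpansion 1 (C i)).map (σ : ℂ →+* ℂ) :=
    fun i => hM i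
  -- good functions
  have gA : S_QGood (A : ℍ → ℂ) := S_QGood.of_modularForm hΓ A
  have gB : S_QGood (B : ℍ → ℂ) := S_QGood.of_modularForm hΓ B
  have gA' : S_QGood (A' : ℍ → ℂ) := S_QGood.of_modularForm hΓ A'
  have gB' : S_QGood (B' : ℍ → ℂ) := S_QGood.of_modularForm hΓ B'
  have gf : S_QGood (f : ℍ → ℂ) := S_QGood.of_modularForm hΓ f
  have gC : ∀ i : ℕ, S_QGood (C i : ℍ → ℂ) := fun i => S_QGood.of_modularForm hΓ1 (C i)
  have gC' : ∀ i : ℕ, S_QGood (C' i : ℍ → ℂ) := fun i => S_QGood.of_modularForm hΓ1 (C' i)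
  -- step 4: the relation for `A`, `B`
  have hR : S_rel n A B (fun i => (C i : ℍ → ℂ)) = 0 := by
    funext z
    rw [S_rel_apply]
    exact S_rel_of_ratio (hfAB z) n (fun i => C i z) (hrel z)
  -- step 5: its `q`-expansion, conjugated
  have hqR := S_qExpansion_rel n gA.fGood gB.fGood (fun i => (gC i).fGood)
  rw [hR, qExpansion_zero] at hqR
  have hqR' : qExpansion 1 (S_rel n A' B' (fun i => (C' i : ℍ → ℂ))) = 0 := by
    rw [S_qExpansion_rel n gA'.fGood gB'.fGood (fun i => (gC' i).fGood), hA', hB']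
    simp only [hC']
    have := congrArg (PowerSeries.map (σ : ℂ →+* ℂ)) hqR
    simpa [map_add, map_sum, map_mul, map_pow] using this.symm
  -- step 6: the relation for `A'`, `B'`
  have hR' : S_rel n A' B' (fun i => (C' i : ℍ → ℂ)) = 0 :=
    (S_rel_qGood n gA' gB' gC').eq_zero hqR'
  -- step 7: extension
  have hA'0 : A' ≠ 0 := by
    intro h0
    apply hA0
    have h1 : qExpansion 1 A' = 0 := by
      rw [h0, FunLike.coe_zero]; exact qExpansion_zero 1
    rw [hA'] at h1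
    have h2 : qExpansion 1 A = 0 := S_map_injective σ (by rw [h1, map_zero])
    exact (ModularForm.qExpansion_eq_zero_iff one_pos hΓ A).1 h2
  obtain ⟨f', hf'⟩ := extend N A' B' hA'0 n C' (fun z => by
    have := congrFun hR' z
    rwa [S_rel_apply] at this)
  -- step 8: cancel
  refine ⟨f', ?_⟩
  have gf' : S_QGood (f' : ℍ → ℂ) := S_QGood.of_modularForm hΓ f'
  have e1 : qExpansion 1 f' * qExpansion 1 A' = qExpansion 1 B' := by
    rw [← qExpansion_mul gf'.fGood gA'.fGood]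
    congr 1
    funext z
    exact hf' z
  have e2 : qExpansion 1 f * qExpansion 1 A = qExpansion 1 B := by
    rw [← qExpansion_mul gf.fGood gA.fGood]
    congr 1
    funext z
    exact hfAB z
  have e3 : (qExpansion 1 f).map (σ : ℂ →+* ℂ) * qExpansion 1 A' = qExpansion 1 B' := by
    rw [hA', hB', ← map_mul, e2]
  have hqA' : qExpansion 1 A' ≠ 0 := fun h =>
    hA'0 ((ModularForm.qExpansion_eq_zero_iff one_pos hΓ A').1 h)
  exact mul_right_cancel₀ hqA' (e1.trans e3.symm)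

end Main

end Fermat.Agent.S23
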