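import Mathlib

/-!
# S23, package G1: the fixed field of `Aut(ℂ)` is `ℚ`
-/

set_option autoImplicit false

open MvPolynomial

namespace Fermat.Agent.S23

/-- Extension of automorphisms: an automorphism of the polynomial ring on a transcendence basis
extends to an automorphism of `ℂ`. -/
theorem G1_exists_ringEquiv_of_mvPolynomial {R : Type*} [CommRing R] [Algebra R ℂ]
    {ι : Type*} (v : ι → ℂ) (hv : IsTranscendenceBasis R v)
    (φ : MvPolynomial ι R ≃+* MvPolynomial ι R) :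
    ∃ σ : ℂ ≃+* ℂ, ∀ p : MvPolynomial ι R, σ (aeval v p) = aeval v (φ p) := by
  classical
  letI := IsAlgClosed.isAlgClosure_of_transcendence_basis v hv
  let e : Algebra.adjoin R (Set.range v) ≃+* Algebra.adjoin R (Set.range v) :=
    hv.1.aevalEquiv.symm.toRingEquiv.trans (φ.trans hv.1.aevalEquiv.toRingEquiv)
  refine ⟨IsAlgClosure.equivOfEquiv ℂ ℂ e, fun p => ?_⟩
  rw [← hv.1.algebraMap_aevalEquiv p, IsAlgClosure.equivOfEquiv_algebraMap,
    ← hv.1.algebraMap_aevalEquiv (φ p)]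
  congr 1
  simp [e]

/-- **G1** the fixed field of `Aut(ℂ)` is `ℚ`. -/
theorem G1_rat_of_fixed (x : ℂ) (h : ∀ σ : ℂ ≃+* ℂ, σ x = x) : ∃ r : ℚ, (r : ℂ) = x := by
  classical
  by_cases hx : IsAlgebraic ℚ x
  · -- algebraic case: Galois theory of `ℚ̄/ℚ`, then extend to `ℂ`
    let A : IntermediateField ℚ ℂ := algebraicClosure ℚ ℂ
    have hxA : x ∈ A := (mem_algebraicClosure_iff).2 hx
    haveI : IsAlgClosure ℚ A := algebraicClosure.isAlgClosure ℚ ℂ
    haveI : IsGalois ℚ A := IsAlgClosure.isGalois ℚ A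
    by_contra hcon
    have hnot : (⟨x, hxA⟩ : A) ∉ Set.range (algebraMap ℚ A) := by
      rintro ⟨r, hr⟩
      exact hcon ⟨r, by simpa using congrArg Subtype.val hr⟩
    rw [InfiniteGalois.mem_range_algebraMap_iff_fixed] at hnot
    push Not at hnot
    obtain ⟨τ, hτ⟩ := hnot
    obtain ⟨s, hs⟩ := exists_isTranscendenceBasis A ℂ
    obtain ⟨σ, hσ⟩ := G1_exists_ringEquiv_of_mvPolynomial (R := A) _ hs
      (MvPolynomial.mapEquiv s τ.toRingEquiv)
    have h1 := hσ (C ⟨x, hxA⟩)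
    simp only [aeval_C, MvPolynomial.mapEquiv_apply, map_C] at h1
    have h2 : σ x = ((τ ⟨x, hxA⟩ : A) : ℂ) := h1
    rw [h σ] at h2
    exact hτ (Subtype.ext h2.symm)
  · -- transcendental case: translate `x` to `x + 1`
    exfalso
    have hx' : Transcendental ℚ x := hx
    have hind : AlgebraicIndepOn ℚ id ({x} : Set ℂ) := by
      rw [AlgebraicIndepOn]
      exact (algebraicIndependent_singleton_iff (⟨x, rfl⟩ : ({x} : Set ℂ))).2 hx'
    obtain ⟨t, hxt, ht⟩ := exists_isTranscendenceBasis_superset hind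
    have hxt' : x ∈ t := hxt rfl
    let x₀ : t := ⟨x, hxt'⟩
    let c : t → ℚ := fun i => if i = x₀ then 1 else 0
    let φ : MvPolynomial t ℚ ≃ₐ[ℚ] MvPolynomial t ℚ :=
      AlgEquiv.ofAlgHom (aeval fun i => X i + C (c i)) (aeval fun i => X i - C (c i))
        (by ext i; simp) (by ext i; simp)
    obtain ⟨σ, hσ⟩ := G1_exists_ringEquiv_of_mvPolynomial (R := ℚ) _ ht φ.toRingEquiv
    have h1 := hσ (X x₀)
    have h2 : σ x = x + 1 := by
      simpa [φ, c, x₀] using h1
    rw [h σ] at h2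
    simp at h2

end Fermat.Agent.S23
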