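import Fermat.Agent.S23.Defs
import Fermat.Agent.S23.FixedField

/-!
# S23, packages G1 + G2: `Fix(Aut ℂ) = ℚ` and Galois descent for `Aut(ℂ)`-stable spaces of
power series
-/

set_option autoImplicit false

namespace Fermat.Agent.S23

/-- **G1** the fixed field of `Aut(ℂ)` is `ℚ`. -/
theorem rat_of_fixed (x : ℂ) (h : ∀ σ : ℂ ≃+* ℂ, σ x = x) : ∃ r : ℚ, (r : ℂ) = x :=
  G1_rat_of_fixed x h

/-- Truncated support of a power series. -/
noncomputable def G2_supp (B : ℕ) (f : PowerSeries ℂ) : Finset ℕ :=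
  open Classical in (Finset.range (B + 1)).filter fun n => PowerSeries.coeff n f ≠ 0

theorem G2_mem_supp {B : ℕ} {f : PowerSeries ℂ} {n : ℕ} :
    n ∈ G2_supp B f ↔ n ≤ B ∧ PowerSeries.coeff n f ≠ 0 := by
  classical
  simp [G2_supp]

theorem G2_supp_eq_empty {B : ℕ} {f : PowerSeries ℂ} (h : G2_supp B f = ∅) :
    ∀ n ≤ B, PowerSeries.coeff n f = 0 := by
  intro n hn
  by_contra hne
  have : n ∈ G2_supp B f := G2_mem_supp.2 ⟨hn, hne⟩
  rw [h] at this
  exact absurd this (Finset.notMem_empty n)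

/-- **G2** Galois descent for `Aut(ℂ)`-stable spaces of power series. -/
theorem descent (V : Submodule ℂ (PowerSeries ℂ)) (B : ℕ)
    (hB : ∀ f ∈ V, (∀ n ≤ B, PowerSeries.coeff n f = 0) → f = 0)
    (hσ : ∀ σ : ℂ ≃+* ℂ, ∀ f ∈ V, f.map (σ : ℂ →+* ℂ) ∈ V) :
    ∀ f ∈ V, f ∈ Submodule.span ℂ {g | g ∈ V ∧ IsRatPS g} := by
  classical
  -- nonzero elements have nonempty truncated support
  have hsupp_ne : ∀ g ∈ V, g ≠ 0 → (G2_supp B g).Nonempty := by
    intro g hg hg0
    by_contra hemp
    rw [Finset.not_nonempty_iff_eq_empty] at hemp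
    exact hg0 (hB g hg (G2_supp_eq_empty hemp))
  suffices H : ∀ (k : ℕ) (f : PowerSeries ℂ), f ∈ V → (G2_supp B f).card = k →
      f ∈ Submodule.span ℂ {g | g ∈ V ∧ IsRatPS g} from fun f hf => H _ f hf rfl
  intro k
  induction k using Nat.strong_induction_on with
  | _ k ih =>
    intro f hf hk
    by_cases hf0 : f = 0
    · rw [hf0]; exact zero_mem _
    -- minimal support element below `f`
    have hex : ∃ m, ∃ g ∈ V, g ≠ 0 ∧ G2_supp B g ⊆ G2_supp B f ∧ (G2_supp B g).card = m :=
      ⟨_, f, hf, hf0, Finset.Subset.refl _, rfl⟩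
    obtain ⟨g, hgV, hg0, hgsub, hgcard⟩ := Nat.find_spec hex
    have hmin : ∀ h ∈ V, h ≠ 0 → G2_supp B h ⊆ G2_supp B f →
        Nat.find hex ≤ (G2_supp B h).card :=
      fun h hhV hh0 hhsub => Nat.find_min' hex ⟨h, hhV, hh0, hhsub, rfl⟩
    obtain ⟨n0, hn0⟩ := hsupp_ne g hgV hg0
    obtain ⟨hn0B, hn0c⟩ := G2_mem_supp.1 hn0
    -- normalise
    set c : ℂ := PowerSeries.coeff n0 g with hc
    set g' : PowerSeries ℂ := c⁻¹ • g with hg'
    have hg'V : g' ∈ V := V.smul_mem _ hgV
    have hcoeff' : ∀ n, PowerSeries.coeff n g' = c⁻¹ * PowerSeries.coeff n g := fun n => by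
      rw [hg', PowerSeries.coeff_smul, smul_eq_mul]
    have hg'n0 : PowerSeries.coeff n0 g' = 1 := by
      rw [hcoeff', inv_mul_cancel₀ hn0c]
    have hg'supp : G2_supp B g' = G2_supp B g := by
      ext n
      rw [G2_mem_supp, G2_mem_supp, hcoeff']
      simp [hn0c]
    -- Galois invariance of `g'`
    have hfix : ∀ σ : ℂ ≃+* ℂ, g'.map (σ : ℂ →+* ℂ) = g' := by
      intro σ
      by_contra hne
      set h : PowerSeries ℂ := g'.map (σ : ℂ →+* ℂ) - g' with hh
      have hhV : h ∈ V := V.sub_mem (hσ σ g' hg'V) hg'V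
      have hh0 : h ≠ 0 := fun h0 => hne (sub_eq_zero.1 h0)
      have hcoeffh : ∀ n, PowerSeries.coeff n h =
          σ (PowerSeries.coeff n g') - PowerSeries.coeff n g' := fun n => by
        rw [hh, map_sub, PowerSeries.coeff_map]; rfl
      have hhsub : G2_supp B h ⊆ (G2_supp B g).erase n0 := by
        intro n hn
        obtain ⟨hnB, hnc⟩ := G2_mem_supp.1 hn
        rw [hcoeffh] at hnc
        rw [Finset.mem_erase]
        refine ⟨?_, ?_⟩
        · rintro rfl
          rw [hg'n0, map_one, sub_self] at hnc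
          exact hnc rfl
        · rw [← hg'supp, G2_mem_supp]
          refine ⟨hnB, fun h0 => hnc ?_⟩
          rw [h0, map_zero, sub_self]
      have hlt : (G2_supp B h).card < (G2_supp B g).card :=
        lt_of_le_of_lt (Finset.card_le_card hhsub) (Finset.card_erase_lt_of_mem hn0)
      have hge := hmin h hhV hh0
        (hhsub.trans ((Finset.erase_subset _ _).trans hgsub))
      rw [hgcard] at hlt
      exact absurd hge (not_le.2 hlt)
    have hg'rat : IsRatPS g' := by
      intro n
      obtain ⟨r, hr⟩ := rat_of_fixed (PowerSeries.coeff n g') fun σ => by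
        have := congrArg (PowerSeries.coeff n) (hfix σ)
        rw [PowerSeries.coeff_map] at this
        exact this
      exact ⟨r, hr.symm⟩
    have hg'span : g' ∈ Submodule.span ℂ {g | g ∈ V ∧ IsRatPS g} :=
      Submodule.subset_span ⟨hg'V, hg'rat⟩
    -- subtract
    set a : ℂ := PowerSeries.coeff n0 f with ha
    set f' : PowerSeries ℂ := f - a • g' with hf'
    have hf'V : f' ∈ V := V.sub_mem hf (V.smul_mem _ hg'V)
    have hcoefff' : ∀ n, PowerSeries.coeff n f' =
        PowerSeries.coeff n f - a * PowerSeries.coeff n g' := fun n => by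
      rw [hf', map_sub, PowerSeries.coeff_smul, smul_eq_mul]
    have hn0f : n0 ∈ G2_supp B f := hgsub hn0
    have hf'sub : G2_supp B f' ⊆ (G2_supp B f).erase n0 := by
      intro n hn
      obtain ⟨hnB, hnc⟩ := G2_mem_supp.1 hn
      rw [hcoefff'] at hnc
      rw [Finset.mem_erase]
      refine ⟨?_, ?_⟩
      · rintro rfl
        rw [hg'n0, mul_one, sub_self] at hnc
        exact hnc rfl
      · rw [G2_mem_supp]
        refine ⟨hnB, fun h0 => hnc ?_⟩
        have hg'0 : PowerSeries.coeff n g' = 0 := by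
          by_contra hne
          have : n ∈ G2_supp B g' := G2_mem_supp.2 ⟨hnB, hne⟩
          rw [hg'supp] at this
          exact (G2_mem_supp.1 (hgsub this)).2 h0
        rw [h0, hg'0, mul_zero, sub_self]
    have hlt : (G2_supp B f').card < k :=
      hk ▸ lt_of_le_of_lt (Finset.card_le_card hf'sub) (Finset.card_erase_lt_of_mem hn0f)
    have hf'span := ih _ hlt f' hf'V rfl
    have : f = f' + a • g' := by rw [hf']; abel
    rw [this]
    exact add_mem hf'span (Submodule.smul_mem _ _ hg'span)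

end Fermat.Agent.S23
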