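import Fermat.Agent.S23.IntPS

/-!
# S23, package L1: level one modular forms are spanned by forms with integral q-expansion
-/

set_option autoImplicit false

open UpperHalfPlane ModularForm ModularFormClass EisensteinSeries
open scoped MatrixGroups

namespace Fermat.Agent.S23

lemma isIntPS_E₄ : IsIntPS (qExpansion 1 E₄) := by
  intro n
  have h := E_qExpansion_coeff (k := 4) (by norm_num) ⟨2, rfl⟩ n
  by_cases hn : n = 0
  · exact ⟨1, by rw [show (E₄ : ℍ → ℂ) = E (k := 4) (by norm_num) from rfl, h]; simp [hn]⟩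
  · refine ⟨240 * (ArithmeticFunction.sigma 3 n : ℤ), ?_⟩
    rw [show (E₄ : ℍ → ℂ) = E (k := 4) (by norm_num) from rfl, h]
    simp only [hn, if_false]
    norm_num [show bernoulli 4 = -1 / 30 by decide +kernel]

lemma isIntPS_E₆ : IsIntPS (qExpansion 1 E₆) := by
  intro n
  have h := E_qExpansion_coeff (k := 6) (by norm_num) ⟨3, rfl⟩ n
  by_cases hn : n = 0
  · exact ⟨1, by rw [show (E₆ : ℍ → ℂ) = E (k := 6) (by norm_num) from rfl, h]; simp [hn]⟩
  · refine ⟨-504 * (ArithmeticFunction.sigma 5 n : ℤ), ?_⟩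
    rw [show (E₆ : ℍ → ℂ) = E (k := 6) (by norm_num) from rfl, h]
    simp only [hn, if_false]
    norm_num [show bernoulli 6 = 1 / 42 by decide +kernel]

end Fermat.Agent.S23

namespace Fermat.Agent.S23

/-- `E₄³ - E₆²` as a level one form of weight 12. -/
noncomputable def E4CubeSubE6Sq : ModularForm 𝒮ℒ 12 :=
  ModularForm.mcast (by decide) (E₄.pow 3) - ModularForm.mcast (by decide) (E₆.pow 2)

lemma E4CubeSubE6Sq_apply (z : ℍ) : E4CubeSubE6Sq z = E₄ z ^ 3 - E₆ z ^ 2 := by
  simp only [E4CubeSubE6Sq, coe_mcast, coe_pow, sub_apply, Pi.pow_apply]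

lemma one_mem_strictPeriods_SL' : (1 : ℝ) ∈ (𝒮ℒ).strictPeriods := by simp

lemma E4CubeSubE6Sq_mem : E4CubeSubE6Sq ∈ IntSpan 𝒮ℒ 12 := by
  apply mem_intSpan_of_isIntPS
  have : qExpansion 1 E4CubeSubE6Sq = qExpansion 1 E₄ ^ 3 - qExpansion 1 E₆ ^ 2 := by
    simp only [E4CubeSubE6Sq, FunLike.coe_sub, coe_mcast,
      ModularForm.qExpansion_sub one_pos one_mem_strictPeriods_SL',
      ModularForm.qExpansion_pow one_pos one_mem_strictPeriods_SL']
  rw [this]
  exact (isIntPS_E₄.pow 3).sub (isIntPS_E₆.pow 2)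

/-- The monomial `E₄^a E₆^b`. -/
noncomputable def monoE (a b : ℕ) : ModularForm 𝒮ℒ ((a : ℤ) * 4 + (b : ℤ) * 6) :=
  (E₄.pow a).mul (E₆.pow b)

lemma qExpansion_monoE (a b : ℕ) :
    qExpansion 1 (monoE a b) = qExpansion 1 E₄ ^ a * qExpansion 1 E₆ ^ b := by
  simp only [monoE, ModularForm.qExpansion_mul one_pos one_mem_strictPeriods_SL',
    ModularForm.qExpansion_pow one_pos one_mem_strictPeriods_SL']

lemma monoE_mem (a b : ℕ) : monoE a b ∈ IntSpan 𝒮ℒ ((a : ℤ) * 4 + (b : ℤ) * 6) := by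
  apply mem_intSpan_of_isIntPS
  rw [qExpansion_monoE]
  exact (isIntPS_E₄.pow a).mul (isIntPS_E₆.pow b)

lemma coeff_zero_monoE (a b : ℕ) : PowerSeries.coeff 0 (qExpansion 1 (monoE a b)) = 1 := by
  rw [qExpansion_monoE]
  have h4 : PowerSeries.constantCoeff (qExpansion 1 E₄) = 1 := by
    simpa using E_qExpansion_coeff_zero (k := 4) (by norm_num) ⟨2, rfl⟩
  have h6 : PowerSeries.constantCoeff (qExpansion 1 E₆) = 1 := by
    simpa using E_qExpansion_coeff_zero (k := 6) (by norm_num) ⟨3, rfl⟩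
  simp [h4, h6]

lemma exists_monomial_weight {w : ℤ} (hw : 4 ≤ w) (hev : Even w) :
    ∃ a b : ℕ, (a : ℤ) * 4 + (b : ℤ) * 6 = w := by
  obtain ⟨m, hm⟩ := hev
  rcases Int.emod_two_eq_zero_or_one m with h | h
  · refine ⟨(m / 2).toNat, 0, ?_⟩
    have : 0 ≤ m / 2 := by omega
    rw [Int.toNat_of_nonneg this]; omega
  · refine ⟨((m - 3) / 2).toNat, 1, ?_⟩
    have : 0 ≤ (m - 3) / 2 := by omega
    rw [Int.toNat_of_nonneg this]; omega

/-- **L1**: every level one modular form lies in the span of the forms with integral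
`q`-expansion. -/
theorem levelOne_mem_intSpan : ∀ (w : ℤ) (f : ModularForm 𝒮ℒ w), f ∈ IntSpan 𝒮ℒ w := by
  intro w
  induction' hn : w.toNat using Nat.strong_induction_on with n ih generalizing w
  intro f
  rcases lt_or_ge w 0 with hneg | hnn
  · have : f = 0 := by
      ext z
      simpa using congrFun (ModularFormClass.levelOne_neg_weight_eq_zero hneg f) z
    rw [this]; exact Submodule.zero_mem _
  rcases Int.even_or_odd w with hev | hodd
  swap
  · rw [ModularForm.levelOne_odd_weight_eq_zero hodd f]; exact Submodule.zero_mem _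
  rcases lt_or_ge w 4 with hlt | hge
  · -- w = 0 or w = 2
    have hw : w = 0 ∨ w = 2 := by
      obtain ⟨m, hm⟩ := hev
      omega
    rcases hw with rfl | rfl
    · obtain ⟨c, hc⟩ := ModularFormClass.levelOne_weight_zero_const f
      have hf : f = c • (1 : ModularForm 𝒮ℒ 0) := by
        ext z
        simp [hc]
      rw [hf]
      refine Submodule.smul_mem _ c (mem_intSpan_of_isIntPS ?_)
      rw [ModularForm.qExpansion_one]
      exact IsIntPS.one
    · have : f = 0 := rank_zero_iff_forall_zero.mp ModularForm.levelOne_weight_two_rank_zero f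
      rw [this]; exact Submodule.zero_mem _
  · obtain ⟨a, b, hab⟩ := exists_monomial_weight hge hev
    set g : ModularForm 𝒮ℒ w := ModularForm.mcast hab (monoE a b) with hg
    have hgmem : g ∈ IntSpan 𝒮ℒ w := IntSpan.mcast_mem hab (monoE_mem a b)
    have hg0 : PowerSeries.coeff 0 (qExpansion 1 g) = 1 := by
      rw [hg, ModularForm.qExpansion_mcast]; exact coeff_zero_monoE a b
    set c : ℂ := PowerSeries.coeff 0 (qExpansion 1 f) with hc
    set f₀ : ModularForm 𝒮ℒ w := f - c • g with hf₀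
    have h0 : PowerSeries.coeff 0 (qExpansion 1 f₀) = 0 := by
      rw [hf₀, show (⇑(f - c • g) : ℍ → ℂ) = ⇑f - ⇑(c • g) from rfl,
        ModularForm.qExpansion_sub one_pos one_mem_strictPeriods_SL',
        show (⇑(c • g) : ℍ → ℂ) = c • ⇑g from rfl,
        ModularForm.qExpansion_smul one_pos one_mem_strictPeriods_SL']
      have hg0' : PowerSeries.constantCoeff (qExpansion 1 ⇑g) = 1 := by simpa using hg0
      simp [hg0', hc]
    set h : ModularForm 𝒮ℒ (w - 12) := CuspForm.discriminantEquiv (ModularForm.toCuspForm f₀ h0)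
    have hh : h ∈ IntSpan 𝒮ℒ (w - 12) := by
      refine ih (w - 12).toNat ?_ (w - 12) rfl h
      omega
    have hmul : (E4CubeSubE6Sq.mul ((1 / 1728 : ℂ) • h)) ∈ IntSpan 𝒮ℒ (12 + (w - 12)) :=
      IntSpan.mul_mem one_mem_strictPeriods_SL' E4CubeSubE6Sq_mem (Submodule.smul_mem _ _ hh)
    have hf₀mem : f₀ ∈ IntSpan 𝒮ℒ w := by
      refine IntSpan.mem_of_coe_eq (by ring) hmul (fun z => ?_)
      have h1 := ModularForm.discriminant_mul_discriminantEquiv_apply
        (ModularForm.toCuspForm f₀ h0) z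
      rw [ModularForm.toCuspForm_apply] at h1
      have h2 := ModularForm.discriminant_eq_E₄_cube_sub_E₆_sq z
      simp only [coe_mul, Pi.mul_apply, E4CubeSubE6Sq_apply, FunLike.coe_smul, Pi.smul_apply,
        smul_eq_mul]
      rw [← h1, h2]
      ring
    have : f = c • g + f₀ := by rw [hf₀]; abel
    rw [this]
    exact Submodule.add_mem _ (Submodule.smul_mem _ c hgmem) hf₀mem

theorem levelOne_intSpan (w : ℤ) : IntSpan 𝒮ℒ w = ⊤ :=
  eq_top_iff.2 fun f _ => levelOne_mem_intSpan w f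

end Fermat.Agent.S23
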