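import Fermat.Agent.S23.IntPS
import Fermat.Agent.S23.LevelOne
import Fermat.Agent.S23.Descent
import Fermat.Prelude.Thm_ModularForm_sturm_bound_Gamma0
import Fermat.Prelude.Thm_CongruenceSubgroup_one_mem_strictPeriods_Gamma0

/-!
# S23, package F: final assembly

`hasIntegralStructure_of_packages` deduces `CuspForm.HasIntegralStructure N k` from the
packages `conj_stable` (S), `ratio` (I), `integrality` (E), `bdd_denoms` (D), taken here as
hypotheses in exactly the form of the skeleton, together with the already proved packages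
`descent` (G2) and `levelOne_intSpan` (L1) and the Sturm bound of the prelude.
-/

set_option autoImplicit false

open UpperHalfPlane ModularForm ModularFormClass
open scoped MatrixGroups

namespace Fermat.Agent.S23

section Good

/-- Functions on the upper half plane whose cusp function (period 1) is analytic at `0`. -/
def FGood (f : ℍ → ℂ) : Prop := AnalyticAt ℂ (cuspFunction 1 f) 0

lemma FGood.mul {f g : ℍ → ℂ} (hf : FGood f) (hg : FGood g) : FGood (f * g) := by
  unfold FGood at *
  rw [cuspFunction_mul hf.continuousAt hg.continuousAt]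
  exact hf.mul hg

lemma FGood.add {f g : ℍ → ℂ} (hf : FGood f) (hg : FGood g) : FGood (f + g) := by
  unfold FGood at *
  rw [cuspFunction_add hf.continuousAt hg.continuousAt]
  exact hf.add hg

lemma FGood.one : FGood (1 : ℍ → ℂ) := by
  unfold FGood
  have h1 : cuspFunction 1 (1 : ℍ → ℂ) = 1 := by
    ext q
    rcases eq_or_ne q 0 with rfl | hq
    · simpa [cuspFunction, Function.Periodic.cuspFunction] using! tendsto_const_nhds.limUnder_eq
    · simp [cuspFunction, Function.Periodic.cuspFunction_eq_of_nonzero 1 _ hq]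
  rw [h1]
  exact analyticAt_const

lemma FGood.zero : FGood (0 : ℍ → ℂ) := by
  unfold FGood
  have h0 : cuspFunction 1 (0 : ℍ → ℂ) = 0 := by
    ext q
    rcases eq_or_ne q 0 with rfl | hq
    · simpa [cuspFunction, Function.Periodic.cuspFunction] using! tendsto_const_nhds.limUnder_eq
    · simp [cuspFunction, Function.Periodic.cuspFunction_eq_of_nonzero 1 _ hq]
  rw [h0]
  exact analyticAt_const

lemma FGood.pow {f : ℍ → ℂ} (hf : FGood f) (n : ℕ) : FGood (f ^ n) := by
  induction n with
  | zero => rw [pow_zero]; exact FGood.one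
  | succ n ih => rw [pow_succ]; exact ih.mul hf

lemma FGood.sum {ι : Type*} (s : Finset ι) {f : ι → ℍ → ℂ} (hf : ∀ i ∈ s, FGood (f i)) :
    FGood (∑ i ∈ s, f i) := by
  classical
  induction s using Finset.induction_on with
  | empty => rw [Finset.sum_empty]; exact FGood.zero
  | insert a s ha ih =>
    rw [Finset.sum_insert ha]
    exact (hf a (Finset.mem_insert_self a s)).add
      (ih fun i hi => hf i (Finset.mem_insert_of_mem hi))

lemma qExpansion_pow_of_FGood {f : ℍ → ℂ} (hf : FGood f) (n : ℕ) :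
    qExpansion 1 (f ^ n) = qExpansion 1 f ^ n := by
  induction n with
  | zero => rw [pow_zero, pow_zero]; exact qExpansion_one 1
  | succ n ih => rw [pow_succ, pow_succ, qExpansion_mul (hf.pow n) hf, ih]

lemma qExpansion_sum_of_FGood {ι : Type*} (s : Finset ι) {f : ι → ℍ → ℂ}
    (hf : ∀ i ∈ s, FGood (f i)) :
    qExpansion 1 (∑ i ∈ s, f i) = ∑ i ∈ s, qExpansion 1 (f i) := by
  classical
  induction s using Finset.induction_on with
  | empty => rw [Finset.sum_empty, Finset.sum_empty]; exact qExpansion_zero 1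
  | insert a s ha ih =>
    rw [Finset.sum_insert ha, Finset.sum_insert ha,
      qExpansion_add (hf a (Finset.mem_insert_self a s))
        (FGood.sum s fun i hi => hf i (Finset.mem_insert_of_mem hi)),
      ih fun i hi => hf i (Finset.mem_insert_of_mem hi)]

end Good

section Assembly

variable (N : ℕ) [NeZero N] (k : ℤ)

local notation "Γ0N" => CongruenceSubgroup.Gamma0 N

omit [NeZero N] in
lemma final_hΓ : (1 : ℝ) ∈
    (Subgroup.map (Matrix.SpecialLinearGroup.mapGL ℝ) (CongruenceSubgroup.Gamma0 N)).strictPeriods :=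
  CongruenceSubgroup.one_mem_strictPeriods_Gamma0 N

/-- q-expansion as a linear map on cusp forms of level `Γ₀(N)`. -/
noncomputable def qexpₗ : CuspForm (CongruenceSubgroup.Gamma0 N) k →ₗ[ℂ] PowerSeries ℂ where
  toFun f := qExpansion 1 f
  map_add' f g := ModularForm.qExpansion_add one_pos (final_hΓ N) f g
  map_smul' a f := ModularForm.qExpansion_smul one_pos (final_hΓ N) a f

@[simp] lemma qexpₗ_apply (f : CuspForm (CongruenceSubgroup.Gamma0 N) k) :
    qexpₗ N k f = qExpansion 1 f := rfl

lemma qexpₗ_injective : Function.Injective (qexpₗ N k) := by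
  rw [← LinearMap.ker_eq_bot, LinearMap.ker_eq_bot']
  intro f hf
  have h1 : qExpansion 1 (CuspForm.toModularFormₗ f) = 0 := hf
  have h2 : CuspForm.toModularFormₗ f = 0 :=
    (ModularForm.qExpansion_eq_zero_iff one_pos (final_hΓ N) _).1 h1
  exact CuspForm.toModularFormₗ_injective (by simpa using h2)

/-- **F** (final assembly), with the packages S, I, E, D as hypotheses. -/
theorem hasIntegralStructure_of_packages
    (h_conj : ∀ (σ : ℂ ≃+* ℂ) (f : CuspForm (CongruenceSubgroup.Gamma0 N) k),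
      ∃ f' : CuspForm (CongruenceSubgroup.Gamma0 N) k,
        qExpansion 1 f' = (qExpansion 1 f).map (σ : ℂ →+* ℂ))
    (h_ratio : ∀ f : ModularForm (CongruenceSubgroup.Gamma0 N) k,
      ∃ (w : ℤ) (A : ModularForm (CongruenceSubgroup.Gamma0 N) w)
        (B : ModularForm (CongruenceSubgroup.Gamma0 N) (w + k)),
        A ∈ IntSpan _ w ∧ B ∈ IntSpan _ (w + k) ∧ A ≠ 0 ∧ ∀ z : ℍ, f z * A z = B z)
    (h_int : ∀ f : CuspForm (CongruenceSubgroup.Gamma0 N) k,
      ∃ (n : ℕ) (C : (i : ℕ) → CuspForm 𝒮ℒ (k * (i + 1))),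
        ∀ z : ℍ, f z ^ n + ∑ i ∈ Finset.range n, C i z * f z ^ (n - 1 - i) = 0)
    (h_bdd : ∀ (F : PowerSeries ℂ) (_ : IsRatPS F) (A B : PowerSeries ℂ)
      (_ : A ∈ IntSpanPS) (_ : B ∈ IntSpanPS) (_ : A ≠ 0) (_ : F * A = B)
      (n : ℕ) (C : ℕ → PowerSeries ℂ) (_ : ∀ i, C i ∈ IntSpanPS)
      (_ : F ^ n + ∑ i ∈ Finset.range n, C i * F ^ (n - 1 - i) = 0),
      ∃ D : ℕ, D ≠ 0 ∧ IsIntPS ((D : ℂ) • F)) :
    CuspForm.HasIntegralStructure N k := by
  have hΓ := final_hΓ N
  set W : Submodule ℂ (CuspForm (CongruenceSubgroup.Gamma0 N) k) :=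
    Submodule.span ℂ ((CuspForm.intLattice N k :
      Submodule ℤ (CuspForm (CongruenceSubgroup.Gamma0 N) k)) :
      Set (CuspForm (CongruenceSubgroup.Gamma0 N) k)) with hW
  set V : Submodule ℂ (PowerSeries ℂ) := LinearMap.range (qexpₗ N k) with hV
  -- Sturm bound
  have hB : ∀ f ∈ V, (∀ n ≤ (k * (CongruenceSubgroup.Gamma0 N).index).toNat / 12,
      PowerSeries.coeff n f = 0) → f = 0 := by
    rintro _ ⟨G, rfl⟩ h
    have h1 : CuspForm.toModularFormₗ G = 0 :=
      ModularForm.sturm_bound_Gamma0 N (CuspForm.toModularFormₗ G) (fun n hn => h n hn)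
    have h2 : G = 0 := CuspForm.toModularFormₗ_injective (by simpa using h1)
    rw [h2, map_zero]
  -- stability under `Aut ℂ`
  have hσ : ∀ σ : ℂ ≃+* ℂ, ∀ f ∈ V, f.map (σ : ℂ →+* ℂ) ∈ V := by
    rintro σ _ ⟨G, rfl⟩
    obtain ⟨G', hG'⟩ := h_conj σ G
    exact ⟨G', hG'⟩
  have hdesc := descent V _ hB hσ
  -- rational elements come from the span of the integral lattice
  have hkey : ∀ G : CuspForm (CongruenceSubgroup.Gamma0 N) k, IsRatPS (qExpansion 1 G) →
      G ∈ W := by
    intro G hrat
    obtain ⟨w, A, B, hA, hB', hA0, hGAB⟩ := h_ratio (CuspForm.toModularFormₗ G)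
    obtain ⟨n, C, hC⟩ := h_int G
    have hGgood : FGood (⇑G) := ModularFormClass.analyticAt_cuspFunction_zero G one_pos hΓ
    have hAgood : FGood (⇑A) := ModularFormClass.analyticAt_cuspFunction_zero A one_pos hΓ
    have hFAB : qExpansion 1 G * qExpansion 1 A = qExpansion 1 B := by
      rw [← qExpansion_mul hGgood hAgood]
      congr 1
      ext z
      exact hGAB z
    -- the coefficient functions, as plain functions
    obtain ⟨c, hc_good, hc_mem, hc_eq⟩ : ∃ c : ℕ → ℍ → ℂ, (∀ i, FGood (c i)) ∧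
        (∀ i, qExpansion 1 (c i) ∈ IntSpanPS) ∧ ∀ i z, c i z = C i z := by
      refine ⟨fun i => ⇑(C i), fun i => ?_, fun i => ?_, fun i z => rfl⟩
      · exact ModularFormClass.analyticAt_cuspFunction_zero (C i) one_pos
          one_mem_strictPeriods_SL'
      · have h1 : CuspForm.toModularFormₗ (C i) ∈ IntSpan 𝒮ℒ (k * (i + 1)) := by
          rw [levelOne_intSpan]; trivial
        have h2 := IntSpan.qExpansion_mem one_mem_strictPeriods_SL' h1
        have h3 : (⇑(CuspForm.toModularFormₗ (C i)) : ℍ → ℂ) = ⇑(C i) := by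
          funext z
          exact CuspForm.toModularFormₗ_apply (C i) z
        rw [h3] at h2
        exact h2
    have hint : qExpansion 1 G ^ n +
        ∑ i ∈ Finset.range n, qExpansion 1 (c i) * qExpansion 1 G ^ (n - 1 - i) = 0 := by
      have hfun : (⇑G : ℍ → ℂ) ^ n + ∑ i ∈ Finset.range n, c i * (⇑G : ℍ → ℂ) ^ (n - 1 - i)
          = 0 := by
        funext z
        have := hC z
        simp only [Pi.add_apply, Pi.pow_apply, Finset.sum_apply, Pi.mul_apply, Pi.zero_apply,
          hc_eq]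
        exact this
      have hsumgood : ∀ i ∈ Finset.range n, FGood (c i * (⇑G : ℍ → ℂ) ^ (n - 1 - i)) :=
        fun i _ => (hc_good i).mul (hGgood.pow _)
      have h2 := congrArg (qExpansion 1) hfun
      rw [qExpansion_zero, qExpansion_add (hGgood.pow n) (FGood.sum _ hsumgood),
        qExpansion_pow_of_FGood hGgood, qExpansion_sum_of_FGood _ hsumgood] at h2
      rw [← h2]
      congr 1
      refine Finset.sum_congr rfl fun i _ => ?_
      rw [qExpansion_mul (hc_good i) (hGgood.pow _), qExpansion_pow_of_FGood hGgood]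
    obtain ⟨D, hD0, hD⟩ := h_bdd (qExpansion 1 G) hrat (qExpansion 1 A) (qExpansion 1 B)
      (IntSpan.qExpansion_mem hΓ hA) (IntSpan.qExpansion_mem hΓ hB')
      ((ModularForm.qExpansion_eq_zero_iff one_pos hΓ A).not.2 hA0) hFAB n
      (fun i => qExpansion 1 (c i)) hc_mem hint
    have hDG : ((D : ℂ) • G) ∈ ((CuspForm.intLattice N k :
        Submodule ℤ (CuspForm (CongruenceSubgroup.Gamma0 N) k)) :
        Set (CuspForm (CongruenceSubgroup.Gamma0 N) k)) := by
      apply Submodule.subset_span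
      intro m
      obtain ⟨a, ha⟩ := hD m
      refine ⟨a, ?_⟩
      rw [ModularFormClass.qCoeff, show (⇑((D : ℂ) • G) : ℍ → ℂ) = (D : ℂ) • ⇑G from rfl,
        ModularForm.qExpansion_smul one_pos hΓ]
      exact ha
    have hD0' : (D : ℂ) ≠ 0 := by exact_mod_cast hD0
    have hG : G = ((D : ℂ))⁻¹ • ((D : ℂ) • G) := by
      rw [smul_smul, inv_mul_cancel₀ hD0', one_smul]
    rw [hG]
    exact Submodule.smul_mem _ _ (Submodule.subset_span hDG)
  -- conclusion
  show W = ⊤
  rw [eq_top_iff]
  intro f _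
  have hf : qexpₗ N k f ∈ V := ⟨f, rfl⟩
  have h1 := hdesc _ hf
  have h2 : Submodule.span ℂ {g | g ∈ V ∧ IsRatPS g} ≤ W.map (qexpₗ N k) := by
    rw [Submodule.span_le]
    rintro g ⟨⟨G, rfl⟩, hrat⟩
    exact ⟨G, hkey G hrat, rfl⟩
  obtain ⟨f', hf', hff'⟩ := h2 h1
  have h3 := qexpₗ_injective N k hff'
  rw [← h3]
  exact hf'

end Assembly

end Fermat.Agent.S23
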