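import Fermat.Agent.S23.LevelOne
import Fermat.Prelude.Def_ModularForm_HeckeOperator
import Fermat.Prelude.Thm_CongruenceSubgroup_one_mem_strictPeriods_Gamma0

/-!
# S23, package U: a primitive element `u = N³ E₄(N·)` for `Γ₀(N)`
-/

set_option autoImplicit false

open UpperHalfPlane ModularForm ModularFormClass EisensteinSeries
open scoped MatrixGroups Pointwise

namespace Fermat.Agent.S23

/-- the matrix `diag(N, 1)` -/
noncomputable abbrev alphaN (N : ℕ) : GL (Fin 2) ℝ := ModularForm.heckeDiagMatrix N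

/-- For `γ ∈ Γ₀(N)`, `α γ = γ' α` with `γ' ∈ SL(2,ℤ)`. -/
lemma alphaN_mul_mem_Gamma0 (N : ℕ) [NeZero N] (γ : SL(2, ℤ))
    (hγ : γ ∈ CongruenceSubgroup.Gamma0 N) :
    ∃ γ' : SL(2, ℤ), alphaN N * Matrix.SpecialLinearGroup.mapGL ℝ γ =
      Matrix.SpecialLinearGroup.mapGL ℝ γ' * alphaN N := by
  have hN : N ≠ 0 := NeZero.ne N
  rw [CongruenceSubgroup.Gamma0_mem] at hγ
  have hdvd : (N : ℤ) ∣ γ 1 0 := (ZMod.intCast_zmod_eq_zero_iff_dvd _ _).mp hγ
  obtain ⟨c', hc'⟩ := hdvd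
  have hdet : γ 0 0 * γ 1 1 - γ 0 1 * γ 1 0 = 1 := by
    have := γ.det_coe
    rwa [Matrix.det_fin_two] at this
  refine ⟨⟨!![γ 0 0, N * γ 0 1; c', γ 1 1], ?_⟩, ?_⟩
  · rw [Matrix.det_fin_two_of]
    rw [hc'] at hdet
    linear_combination hdet
  · apply Matrix.GeneralLinearGroup.ext
    intro i j
    have hc'' : ((γ 1 0 : ℤ) : ℝ) = (N : ℝ) * (c' : ℝ) := by exact_mod_cast congrArg (Int.cast (R := ℝ)) hc'
    simp only [Matrix.GeneralLinearGroup.coe_mul, Matrix.SpecialLinearGroup.mapGL_coe_matrix,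
      ModularForm.val_heckeDiagMatrix hN, Matrix.mul_apply, Fin.sum_univ_two]
    fin_cases i <;> fin_cases j <;>
      simp [Matrix.SpecialLinearGroup.map, hc''] <;> ring

lemma Gamma0_le_conj (N : ℕ) [NeZero N] :
    ((CongruenceSubgroup.Gamma0 N : Subgroup SL(2, ℤ)) : Subgroup (GL (Fin 2) ℝ)) ≤
      ConjAct.toConjAct (alphaN N)⁻¹ • 𝒮ℒ := by
  rintro g ⟨γ, hγ, rfl⟩
  obtain ⟨γ', hγ'⟩ := alphaN_mul_mem_Gamma0 N γ hγ
  rw [Subgroup.mem_pointwise_smul_iff_inv_smul_mem]
  refine ⟨γ', ?_⟩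
  simp only [ConjAct.smul_def, ← ConjAct.toConjAct_inv, ConjAct.ofConjAct_toConjAct, inv_inv]
  rw [hγ']
  group

/-- The form `u = E₄ ∣[4] diag(N,1) = N³ E₄(N ·)` on `Γ₀(N)`. -/
noncomputable def primU (N : ℕ) [NeZero N] : ModularForm (CongruenceSubgroup.Gamma0 N) 4 where
  toFun := (E₄ : ℍ → ℂ) ∣[(4 : ℤ)] alphaN N
  slash_action_eq' γ hγ :=
    (ModularForm.translate E₄ (alphaN N)).slash_action_eq' γ (Gamma0_le_conj N hγ)
  holo' := (ModularForm.translate E₄ (alphaN N)).holo'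
  bdd_at_cusps' hc :=
    (ModularForm.translate E₄ (alphaN N)).bdd_at_cusps' (hc.mono (Gamma0_le_conj N))

lemma coe_primU (N : ℕ) [NeZero N] : (primU N : ℍ → ℂ) = (E₄ : ℍ → ℂ) ∣[(4 : ℤ)] alphaN N := rfl

lemma primU_apply (N : ℕ) [NeZero N] (τ : ℍ) :
    primU N τ = (N : ℂ) ^ (3 : ℕ) * E₄ (alphaN N • τ) := by
  rw [coe_primU, ModularForm.slash_heckeDiagMatrix_apply (4 : ℤ) (NeZero.ne N)]
  norm_num

lemma qParam_alphaN_smul (N : ℕ) [NeZero N] (τ : ℍ) :
    Function.Periodic.qParam 1 ((alphaN N • τ : ℍ) : ℂ) = Function.Periodic.qParam 1 (τ : ℂ) ^ N := by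
  rw [ModularForm.coe_heckeDiagMatrix_smul (NeZero.ne N)]
  simp only [Function.Periodic.qParam, ← Complex.exp_nat_mul]
  congr 1
  push_cast
  ring

/-- The `q`-expansion coefficients of `primU`. -/
lemma qExpansion_primU_coeff (N : ℕ) [NeZero N] (n : ℕ) :
    PowerSeries.coeff n (qExpansion 1 (primU N)) =
      if N ∣ n then (N : ℂ) ^ 3 * PowerSeries.coeff (n / N) (qExpansion 1 E₄) else 0 := by
  have hN : N ≠ 0 := NeZero.ne N
  symm
  refine ModularFormClass.qExpansion_coeff_unique (f := primU N)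
    (c := fun n => if N ∣ n then (N : ℂ) ^ 3 * PowerSeries.coeff (n / N) (qExpansion 1 E₄) else 0)
    one_pos (CongruenceSubgroup.one_mem_strictPeriods_Gamma0 N) (fun τ => ?_) n
  have h1 := ModularForm.hasSum_qExpansion (f := E₄) one_pos one_mem_strictPeriods_SL'
    (alphaN N • τ)
  rw [qParam_alphaN_smul] at h1
  have h2 := h1.mul_left ((N : ℂ) ^ 3)
  rw [← primU_apply] at h2
  have hinj : Function.Injective (fun m : ℕ => N * m) := fun a b h =>
    Nat.eq_of_mul_eq_mul_left (Nat.pos_of_ne_zero hN) h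
  refine (Function.Injective.hasSum_iff hinj ?_).mp ?_
  · intro x hx
    have : ¬ N ∣ x := fun ⟨m, hm⟩ => hx ⟨m, hm.symm⟩
    simp [this]
  · have hfun : ((fun m => (if N ∣ m then (N : ℂ) ^ 3 * PowerSeries.coeff (m / N) (qExpansion 1 E₄)
          else 0) • Function.Periodic.qParam 1 (τ : ℂ) ^ m) ∘ fun m : ℕ => N * m) =
        fun i => (N : ℂ) ^ 3 * (PowerSeries.coeff i (qExpansion 1 E₄) *
          (Function.Periodic.qParam 1 (τ : ℂ) ^ N) ^ i) := by
      funext m
      simp only [Function.comp_apply, dvd_mul_right, if_true, Nat.mul_div_cancel_left _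
        (Nat.pos_of_ne_zero hN), smul_eq_mul, pow_mul]
      ring
    rw [hfun]
    exact h2

lemma isIntPS_primU (N : ℕ) [NeZero N] : IsIntPS (qExpansion 1 (primU N)) := by
  intro n
  rw [qExpansion_primU_coeff]
  split_ifs with h
  · obtain ⟨m, hm⟩ := isIntPS_E₄ (n / N)
    exact ⟨(N : ℤ) ^ 3 * m, by rw [hm]; push_cast; ring⟩
  · exact ⟨0, by simp⟩

/-! ### Limits at `i∞` -/

open Filter Topology

/-- A level one modular form tends to its constant `q`-coefficient at `i∞`. -/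
lemma tendsto_levelOne_atImInfty {k : ℤ} (f : ModularForm 𝒮ℒ k) :
    Tendsto f atImInfty (𝓝 (PowerSeries.coeff 0 (qExpansion 1 f))) := by
  have hanal := ModularFormClass.analyticAt_cuspFunction_zero f one_pos one_mem_strictPeriods_SL'
  have hper := SlashInvariantFormClass.periodic_comp_ofComplex f one_mem_strictPeriods_SL'
  rw [UpperHalfPlane.qExpansion_coeff_zero (f := f) one_pos hanal hper,
    ← UpperHalfPlane.cuspFunction_apply_zero one_pos hanal hper]
  exact (hanal.continuousAt.tendsto.comp (qParam_tendsto_atImInfty one_pos)).congr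
    (fun τ ↦ SlashInvariantFormClass.eq_cuspFunction f τ one_mem_strictPeriods_SL' one_ne_zero)

lemma tendsto_E₄_atImInfty : Tendsto E₄ atImInfty (𝓝 1) := by
  have h := tendsto_levelOne_atImInfty E₄
  have h0 : PowerSeries.coeff 0 (qExpansion 1 E₄) = 1 :=
    E_qExpansion_coeff_zero (k := 4) (by norm_num) ⟨2, rfl⟩
  rwa [h0] at h

section upper

variable (a b d : ℝ) (had : a * d ≠ 0)

lemma det_upperTriangularGL :
    ((ModularForm.upperTriangularGL a b d had).det : ℝ) = a * d := by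
  rw [Matrix.GeneralLinearGroup.val_det_apply, ModularForm.val_upperTriangularGL,
    Matrix.det_fin_two_of]
  ring

lemma slash_upperTriangularGL_apply (hpos : 0 < a * d) (k : ℤ) (f : ℍ → ℂ) (τ : ℍ) :
    (f ∣[k] ModularForm.upperTriangularGL a b d had) τ =
      f (ModularForm.upperTriangularGL a b d had • τ) * ((a * d : ℝ) : ℂ) ^ (k - 1) *
        (d : ℂ) ^ (-k) := by
  have hdet : 0 < ((ModularForm.upperTriangularGL a b d had).det : ℝ) := by
    rw [det_upperTriangularGL]; exact hpos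
  have hσ : UpperHalfPlane.σ (ModularForm.upperTriangularGL a b d had) = .refl ℝ ℂ := by
    rw [UpperHalfPlane.σ, if_pos hdet]
  have hden : UpperHalfPlane.denom (ModularForm.upperTriangularGL a b d had) τ = d := by
    simp [UpperHalfPlane.denom, ModularForm.val_upperTriangularGL]
  rw [ModularForm.slash_apply, hσ, det_upperTriangularGL, hden, abs_of_pos hpos]
  simp

lemma tendsto_slash_upperTriangularGL (hpos : 0 < a * d) {k : ℤ} (f : ModularForm 𝒮ℒ k) :
    Tendsto ((f : ℍ → ℂ) ∣[k] ModularForm.upperTriangularGL a b d had) atImInfty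
      (𝓝 (PowerSeries.coeff 0 (qExpansion 1 f) * ((a * d : ℝ) : ℂ) ^ (k - 1) * (d : ℂ) ^ (-k))) := by
  have h1 : Tendsto (fun τ : ℍ => f (ModularForm.upperTriangularGL a b d had • τ)) atImInfty
      (𝓝 (PowerSeries.coeff 0 (qExpansion 1 f))) :=
    (tendsto_levelOne_atImInfty f).comp
      (tendsto_smul_atImInfty (g := ModularForm.upperTriangularGL a b d had)
        (by simp [ModularForm.val_upperTriangularGL]))
  have h2 := (h1.mul_const (((a * d : ℝ) : ℂ) ^ (k - 1))).mul_const ((d : ℂ) ^ (-k))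
  refine h2.congr (fun τ => ?_)
  rw [slash_upperTriangularGL_apply a b d had hpos]

end upper

/-- Hermite normal form of `diag(N,1) γ`. -/
lemma alphaN_mul_eq (N : ℕ) [NeZero N] (γ : SL(2, ℤ)) :
    ∃ (γ₁ : SL(2, ℤ)) (g t e : ℤ) (_ : 0 < g) (_ : 0 < e) (hge : g * e = N) (_ : g ∣ γ 1 0),
      alphaN N * Matrix.SpecialLinearGroup.mapGL ℝ γ =
        Matrix.SpecialLinearGroup.mapGL ℝ γ₁ *
          ModularForm.upperTriangularGL g t e (by
            have : ((g * e : ℤ) : ℝ) = (N : ℝ) := by exact_mod_cast congrArg (Int.cast (R := ℝ)) hge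
            have hN : (N : ℝ) ≠ 0 := by exact_mod_cast NeZero.ne N
            rw [← Int.cast_mul, this]; exact hN) := by
  have hN : N ≠ 0 := NeZero.ne N
  have hNz : (N : ℤ) ≠ 0 := by exact_mod_cast hN
  have hdet : γ 0 0 * γ 1 1 - γ 0 1 * γ 1 0 = 1 := by
    have := γ.det_coe
    rwa [Matrix.det_fin_two] at this
  set a := γ 0 0 with ha
  set b := γ 0 1 with hb
  set c := γ 1 0 with hc
  set d := γ 1 1 with hd
  set m : ℤ := N * a with hm
  set g : ℤ := (Int.gcd m c : ℤ) with hg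
  have hgpos : 0 < g := by
    rw [hg]
    have : Int.gcd m c ≠ 0 := by
      intro h0
      rw [Int.gcd_eq_zero_iff] at h0
      obtain ⟨h1, h2⟩ := h0
      have ha0 : a = 0 := by
        rcases mul_eq_zero.mp h1 with h | h
        · exact absurd h hNz
        · exact h
      rw [ha0, h2] at hdet
      simp at hdet
    exact_mod_cast Nat.pos_of_ne_zero this
  have hgm : g ∣ m := Int.gcd_dvd_left m c
  have hgc : g ∣ c := Int.gcd_dvd_right m c
  obtain ⟨a', ha'⟩ := hgm
  obtain ⟨c', hc'⟩ := hgc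
  set x := Int.gcdA m c with hx
  set y := Int.gcdB m c with hy
  have hbez : g = m * x + c * y := Int.gcd_eq_gcd_ab m c
  have hbez' : a' * x + c' * y = 1 := by
    have h1 : g * (a' * x + c' * y) = g * 1 := by
      rw [mul_one]
      conv_rhs => rw [hbez, ha', hc']
      ring
    exact mul_left_cancel₀ hgpos.ne' h1
  set e : ℤ := a' * d - N * b * c' with he
  set t : ℤ := x * N * b + y * d with ht
  have hge : g * e = N := by
    have h1 : g * e = m * d - N * b * c := by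
      rw [he, ha', hc']; ring
    rw [h1, hm]
    linear_combination (N : ℤ) * hdet
  have hepos : 0 < e := by
    have hNpos : (0 : ℤ) < N := by exact_mod_cast Nat.pos_of_ne_zero hN
    rw [← hge] at hNpos
    by_contra hneg
    have : g * e ≤ 0 := mul_nonpos_of_nonneg_of_nonpos hgpos.le (not_lt.mp hneg)
    omega
  refine ⟨⟨!![a', -y; c', x], ?_⟩, g, t, e, hgpos, hepos, hge, ⟨c', hc'⟩, ?_⟩
  · rw [Matrix.det_fin_two_of]
    linear_combination hbez'
  · apply Matrix.GeneralLinearGroup.ext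
    intro i j
    have e00 : (N : ℝ) * (a : ℝ) = (a' : ℝ) * (g : ℝ) := by
      have : (N : ℤ) * a = a' * g := by rw [← hm, ha']; ring
      exact_mod_cast congrArg (Int.cast (R := ℝ)) this
    have e01 : (N : ℝ) * (b : ℝ) = (a' : ℝ) * (t : ℝ) - (y : ℝ) * (e : ℝ) := by
      have : (N : ℤ) * b = a' * t - y * e := by
        rw [ht, he]
        linear_combination (-(N : ℤ) * b) * hbez'
      exact_mod_cast congrArg (Int.cast (R := ℝ)) this
    have e10 : (c : ℝ) = (c' : ℝ) * (g : ℝ) := by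
      have : c = c' * g := by rw [hc']; ring
      exact_mod_cast congrArg (Int.cast (R := ℝ)) this
    have e11 : (d : ℝ) = (c' : ℝ) * (t : ℝ) + (x : ℝ) * (e : ℝ) := by
      have : d = c' * t + x * e := by
        rw [ht, he]
        linear_combination (-d) * hbez'
      exact_mod_cast congrArg (Int.cast (R := ℝ)) this
    simp only [Matrix.GeneralLinearGroup.coe_mul, Matrix.SpecialLinearGroup.mapGL_coe_matrix,
      ModularForm.val_heckeDiagMatrix hN, ModularForm.val_upperTriangularGL, Matrix.mul_apply,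
      Fin.sum_univ_two]
    fin_cases i <;> fin_cases j <;>
      simp [Matrix.SpecialLinearGroup.map, ← ha, ← hb, ← hc, ← hd, e00, e01, e10, e11] <;> ring

lemma alphaN_eq (N : ℕ) [NeZero N] :
    alphaN N = ModularForm.upperTriangularGL (N : ℝ) 0 1
      (by rw [mul_one]; exact_mod_cast NeZero.ne N) := by
  simp [alphaN, ModularForm.heckeDiagMatrix, NeZero.ne N]

lemma tendsto_primU (N : ℕ) [NeZero N] :
    Tendsto (primU N) atImInfty (𝓝 ((N : ℂ) ^ 3)) := by
  have hpos : (0 : ℝ) < (N : ℝ) * 1 := by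
    rw [mul_one]; exact_mod_cast Nat.pos_of_ne_zero (NeZero.ne N)
  have h := tendsto_slash_upperTriangularGL (N : ℝ) 0 1
    (by rw [mul_one]; exact_mod_cast NeZero.ne N) hpos E₄
  rw [← alphaN_eq, ← coe_primU] at h
  have h0 : PowerSeries.coeff 0 (qExpansion 1 E₄) = 1 :=
    E_qExpansion_coeff_zero (k := 4) (by norm_num) ⟨2, rfl⟩
  rw [h0] at h
  convert h using 2
  norm_num

/-- **U** (primitivity): the only elements of `SL(2,ℤ)` fixing `primU N` under the weight `4`
slash action are those of `Γ₀(N)`. -/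
theorem primU_slash_ne (N : ℕ) [NeZero N] (γ : SL(2, ℤ))
    (hγ : γ ∉ CongruenceSubgroup.Gamma0 N) :
    (⇑(primU N)) ∣[(4 : ℤ)] (Matrix.SpecialLinearGroup.mapGL ℝ γ) ≠ ⇑(primU N) := by
  intro heq
  obtain ⟨γ₁, g, t, e, hg, he, hge, hgc, hmat⟩ := alphaN_mul_eq N γ
  have hNpos : (0 : ℝ) < N := by exact_mod_cast Nat.pos_of_ne_zero (NeZero.ne N)
  have hgeR : (g : ℝ) * (e : ℝ) = (N : ℝ) := by
    exact_mod_cast congrArg (Int.cast (R := ℝ)) hge
  have hpos : (0 : ℝ) < (g : ℝ) * (e : ℝ) := by rw [hgeR]; exact hNpos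
  have had : (g : ℝ) * (e : ℝ) ≠ 0 := hpos.ne'
  have h1 : (⇑(primU N)) ∣[(4 : ℤ)] (Matrix.SpecialLinearGroup.mapGL ℝ γ) =
      (E₄ : ℍ → ℂ) ∣[(4 : ℤ)] ModularForm.upperTriangularGL g t e had := by
    rw [coe_primU, ← SlashAction.slash_mul, hmat, SlashAction.slash_mul]
    congr 1
    exact E₄.slash_action_eq' _ ⟨γ₁, rfl⟩
  have h2 := tendsto_slash_upperTriangularGL (g : ℝ) t e had hpos E₄
  rw [← h1, heq] at h2
  have h3 := tendsto_nhds_unique h2 (tendsto_primU N)
  have h0 : PowerSeries.coeff 0 (qExpansion 1 E₄) = 1 :=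
    E_qExpansion_coeff_zero (k := 4) (by norm_num) ⟨2, rfl⟩
  rw [h0, hgeR, one_mul] at h3
  have hN3 : ((N : ℝ) : ℂ) ^ ((4 : ℤ) - 1) = (N : ℂ) ^ 3 := by norm_num
  rw [hN3] at h3
  have hN3ne : ((N : ℂ)) ^ 3 ≠ 0 := pow_ne_zero _ (by exact_mod_cast NeZero.ne N)
  have h4 : ((e : ℝ) : ℂ) ^ (-(4 : ℤ)) = 1 := by
    have := mul_left_cancel₀ hN3ne (h3.trans (mul_one _).symm)
    exact this
  have h5 : ((e : ℝ) : ℂ) ^ 4 = 1 := by
    have hinv : (((e : ℝ) : ℂ) ^ (4 : ℤ))⁻¹ = 1 := by rwa [zpow_neg] at h4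
    have := inv_eq_one.mp hinv
    exact_mod_cast this
  have h6 : e ^ 4 = 1 := by
    have : ((e ^ 4 : ℤ) : ℂ) = ((1 : ℤ) : ℂ) := by push_cast; exact_mod_cast h5
    exact_mod_cast this
  have he1 : e = 1 := by
    have := (pow_eq_one_iff_of_nonneg he.le (by norm_num : (4 : ℕ) ≠ 0)).mp h6
    exact this
  have hgN : g = N := by rw [← hge, he1, mul_one]
  apply hγ
  rw [CongruenceSubgroup.Gamma0_mem]
  rw [hgN] at hgc
  exact (ZMod.intCast_zmod_eq_zero_iff_dvd _ _).mpr hgc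

/-- **U** in the form of the skeleton. -/
theorem exists_primitive (N : ℕ) [NeZero N] :
    ∃ u : ModularForm (CongruenceSubgroup.Gamma0 N) 4, IsIntPS (qExpansion 1 u) ∧
      ∀ γ : SL(2, ℤ), γ ∉ CongruenceSubgroup.Gamma0 N →
        (⇑u) ∣[(4 : ℤ)] (Matrix.SpecialLinearGroup.mapGL ℝ γ) ≠ ⇑u :=
  ⟨primU N, isIntPS_primU N, primU_slash_ne N⟩

end Fermat.Agent.S23
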