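import Fermat.Agent.S23.LevelOne
import Fermat.Agent.S23.Primitive
import Fermat.Agent.S20.Vec

/-!
# S23, package I: every modular form on `Γ₀(N)` is a ratio of two forms in the integral span

Lagrange interpolation along a primitive element `u`: with `x_q = u ∣ γ_q⁻¹`, `y_q = f ∣ γ_q⁻¹`
(`q` running over `SL(2,ℤ) ⧸ Γ₀(N)`), put `Φ = ∏_q (X - x_q)` and
`𝔄 = ∑_q y_q ∏_{q' ≠ q} (X - x_{q'})`. Both have level one coefficients, and
`𝔄(u) = f · Φ'(u)`, `Φ'(u) = ∏_{q ≠ 1} (u - x_q) ≠ 0`.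
-/

set_option autoImplicit false
set_option linter.unusedSectionVars false

open UpperHalfPlane ModularForm Matrix.SpecialLinearGroup
open scoped MatrixGroups ModularForm Manifold

namespace Fermat.Agent.S23

open Fermat.Agent.S20

/-! ### Weighted slash relation between polynomials with function coefficients -/

/-- `I_SlRel γ wu w P P'`: the coefficient of `X^n` in `P`, slashed by `γ` in weight `w - wu * n`,
is the coefficient of `X^n` in `P'` (so `X` has weight `wu` and `P` has total weight `w`). -/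
def I_SlRel (γ : SL(2, ℤ)) (wu w : ℤ) (P P' : Polynomial (ℍ → ℂ)) : Prop :=
  ∀ n : ℕ, (P.coeff n) ∣[w - wu * n] γ = P'.coeff n

section SlRel

variable {γ : SL(2, ℤ)} {wu w w₁ w₂ : ℤ} {P P' R R' : Polynomial (ℍ → ℂ)}

theorem I_SlRel.add (h₁ : I_SlRel γ wu w P P') (h₂ : I_SlRel γ wu w R R') :
    I_SlRel γ wu w (P + R) (P' + R') := by
  intro n
  rw [Polynomial.coeff_add, Polynomial.coeff_add, SlashAction.add_slash, h₁ n, h₂ n]

theorem I_SlRel.zero : I_SlRel γ wu w 0 0 := by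
  intro n
  rw [Polynomial.coeff_zero, SlashAction.zero_slash]

theorem I_SlRel.neg (h₁ : I_SlRel γ wu w P P') : I_SlRel γ wu w (-P) (-P') := by
  intro n
  rw [Polynomial.coeff_neg, Polynomial.coeff_neg, SlashAction.neg_slash, h₁ n]

theorem I_SlRel.sub (h₁ : I_SlRel γ wu w P P') (h₂ : I_SlRel γ wu w R R') :
    I_SlRel γ wu w (P - R) (P' - R') := by
  rw [sub_eq_add_neg, sub_eq_add_neg]
  exact h₁.add h₂.neg

theorem I_SlRel.mul (h₁ : I_SlRel γ wu w₁ P P') (h₂ : I_SlRel γ wu w₂ R R') :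
    I_SlRel γ wu (w₁ + w₂) (P * R) (P' * R') := by
  intro n
  rw [Polynomial.coeff_mul, Polynomial.coeff_mul, SlashAction.sum_slash]
  refine Finset.sum_congr rfl fun ij hij => ?_
  have hn : ij.1 + ij.2 = n := Finset.HasAntidiagonal.mem_antidiagonal.1 hij
  have hw : w₁ + w₂ - wu * (n : ℤ) = (w₁ - wu * (ij.1 : ℤ)) + (w₂ - wu * (ij.2 : ℤ)) := by
    rw [← hn]; push_cast; ring
  rw [hw, mul_slash_SL2, h₁ ij.1, h₂ ij.2]

theorem I_SlRel.C {y y' : ℍ → ℂ} (h : y ∣[w] γ = y') :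
    I_SlRel γ wu w (Polynomial.C y) (Polynomial.C y') := by
  intro n
  rw [Polynomial.coeff_C, Polynomial.coeff_C]
  split_ifs with hn
  · subst hn
    simpa using h
  · exact SlashAction.zero_slash _ _

theorem I_SlRel.X : I_SlRel γ wu wu Polynomial.X Polynomial.X := by
  intro n
  rw [Polynomial.coeff_X]
  split_ifs with hn
  · subst hn
    have : wu - wu * ((1 : ℕ) : ℤ) = 0 := by push_cast; ring
    rw [this]
    exact is_invariant_one γ
  · exact SlashAction.zero_slash _ _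

theorem I_SlRel.one : I_SlRel γ wu 0 1 1 := by
  intro n
  rw [Polynomial.coeff_one]
  split_ifs with hn
  · subst hn
    simpa using is_invariant_one γ
  · exact SlashAction.zero_slash _ _

theorem I_SlRel.congr_weight (h : I_SlRel γ wu w₁ P P') (hw : w₁ = w₂) : I_SlRel γ wu w₂ P P' :=
  hw ▸ h

theorem I_SlRel.prod {ι : Type*} (s : Finset ι) {A A' : ι → Polynomial (ℍ → ℂ)}
    (h : ∀ i ∈ s, I_SlRel γ wu w (A i) (A' i)) :
    I_SlRel γ wu (w * s.card) (∏ i ∈ s, A i) (∏ i ∈ s, A' i) := by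
  classical
  induction s using Finset.induction_on with
  | empty => simpa using (I_SlRel.one (γ := γ) (wu := wu))
  | insert a s ha ih =>
    rw [Finset.prod_insert ha, Finset.prod_insert ha]
    refine ((h a (Finset.mem_insert_self a s)).mul
      (ih fun i hi => h i (Finset.mem_insert_of_mem hi))).congr_weight ?_
    rw [Finset.card_insert_of_notMem ha]
    push_cast; ring

theorem I_SlRel.sum {ι : Type*} (s : Finset ι) {A A' : ι → Polynomial (ℍ → ℂ)}
    (h : ∀ i ∈ s, I_SlRel γ wu w (A i) (A' i)) :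
    I_SlRel γ wu w (∑ i ∈ s, A i) (∑ i ∈ s, A' i) := by
  classical
  induction s using Finset.induction_on with
  | empty => simpa using (I_SlRel.zero (γ := γ) (wu := wu) (w := w))
  | insert a s ha ih =>
    rw [Finset.sum_insert ha, Finset.sum_insert ha]
    exact (h a (Finset.mem_insert_self a s)).add
      (ih fun i hi => h i (Finset.mem_insert_of_mem hi))

theorem I_SlRel.derivative (h : I_SlRel γ wu w P P') :
    I_SlRel γ wu (w - wu) (Polynomial.derivative P) (Polynomial.derivative P') := by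
  intro n
  rw [Polynomial.coeff_derivative, Polynomial.coeff_derivative]
  have hw : w - wu - wu * (n : ℤ) = (w - wu * ((n + 1 : ℕ) : ℤ)) + 0 := by push_cast; ring
  rw [hw, mul_slash_SL2, h (n + 1)]
  congr 1
  have : ((n : ℍ → ℂ) + 1) = Function.const ℍ ((n : ℂ) + 1) := by
    ext z; simp
  rw [this]
  exact is_invariant_const γ _

end SlRel

/-! ### Polynomials with holomorphic coefficients bounded at `i∞` -/

/-- All coefficients are holomorphic and bounded at `i∞`. -/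
def I_Good (P : Polynomial (ℍ → ℂ)) : Prop :=
  ∀ n : ℕ, MDiff (P.coeff n) ∧ IsBoundedAtImInfty (P.coeff n)

section Good

variable {P R : Polynomial (ℍ → ℂ)}

theorem I_good_zero : I_Good 0 := by
  intro n
  rw [Polynomial.coeff_zero]
  exact ⟨mdifferentiable_const, Filter.const_boundedAtFilter atImInfty (0 : ℂ)⟩

theorem I_Good.add (h₁ : I_Good P) (h₂ : I_Good R) : I_Good (P + R) := by
  intro n
  rw [Polynomial.coeff_add]
  exact ⟨(h₁ n).1.add (h₂ n).1, (h₁ n).2.add (h₂ n).2⟩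

theorem I_Good.sum {ι : Type*} (s : Finset ι) {A : ι → Polynomial (ℍ → ℂ)}
    (h : ∀ i ∈ s, I_Good (A i)) : I_Good (∑ i ∈ s, A i) :=
  Finset.sum_induction A I_Good (fun _ _ => I_Good.add) I_good_zero h

theorem I_good_coeff_sum {ι : Type*} (s : Finset ι) (a : ι → ℍ → ℂ)
    (h : ∀ i ∈ s, MDiff (a i) ∧ IsBoundedAtImInfty (a i)) :
    MDiff (∑ i ∈ s, a i) ∧ IsBoundedAtImInfty (∑ i ∈ s, a i) := by
  refine Finset.sum_induction a (fun g => MDiff g ∧ IsBoundedAtImInfty g) ?_ ?_ h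
  · intro g₁ g₂ h₁ h₂
    exact ⟨h₁.1.add h₂.1, h₁.2.add h₂.2⟩
  · exact ⟨mdifferentiable_const, Filter.const_boundedAtFilter atImInfty (0 : ℂ)⟩

theorem I_Good.mul (h₁ : I_Good P) (h₂ : I_Good R) : I_Good (P * R) := by
  intro n
  rw [Polynomial.coeff_mul]
  refine I_good_coeff_sum _ _ fun ij _ => ?_
  exact ⟨(h₁ ij.1).1.mul (h₂ ij.2).1, (h₁ ij.1).2.mul (h₂ ij.2).2⟩

theorem I_good_C {y : ℍ → ℂ} (hy : MDiff y) (hy' : IsBoundedAtImInfty y) :
    I_Good (Polynomial.C y) := by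
  intro n
  rw [Polynomial.coeff_C]
  split_ifs
  · exact ⟨hy, hy'⟩
  · exact ⟨mdifferentiable_const, Filter.const_boundedAtFilter atImInfty (0 : ℂ)⟩

theorem I_good_one : I_Good 1 := by
  have : (1 : Polynomial (ℍ → ℂ)) = Polynomial.C (Function.const ℍ (1 : ℂ)) := by
    rw [← Polynomial.C_1]; rfl
  rw [this]
  exact I_good_C mdifferentiable_const (Filter.const_boundedAtFilter atImInfty (1 : ℂ))

theorem I_good_X : I_Good Polynomial.X := by
  intro n
  rw [Polynomial.coeff_X]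
  split_ifs
  · exact ⟨mdifferentiable_const, Filter.const_boundedAtFilter atImInfty (1 : ℂ)⟩
  · exact ⟨mdifferentiable_const, Filter.const_boundedAtFilter atImInfty (0 : ℂ)⟩

theorem I_Good.neg (h₁ : I_Good P) : I_Good (-P) := by
  intro n
  rw [Polynomial.coeff_neg]
  exact ⟨(h₁ n).1.neg, (h₁ n).2.neg⟩

theorem I_Good.sub (h₁ : I_Good P) (h₂ : I_Good R) : I_Good (P - R) := by
  rw [sub_eq_add_neg]
  exact h₁.add h₂.neg

theorem I_Good.prod {ι : Type*} (s : Finset ι) {A : ι → Polynomial (ℍ → ℂ)}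
    (h : ∀ i ∈ s, I_Good (A i)) : I_Good (∏ i ∈ s, A i) :=
  Finset.prod_induction A I_Good (fun _ _ => I_Good.mul) I_good_one h

theorem I_Good.derivative (h : I_Good P) : I_Good (Polynomial.derivative P) := by
  intro n
  rw [Polynomial.coeff_derivative]
  have : ((n : ℍ → ℂ) + 1) = Function.const ℍ ((n : ℂ) + 1) := by
    ext z; simp
  rw [this]
  exact ⟨(h (n + 1)).1.mul mdifferentiable_const,
    (h (n + 1)).2.mul (Filter.const_boundedAtFilter atImInfty _)⟩

end Good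

/-! ### Functions underlying members of the integral span -/

section InSpan

/-- `g` is the underlying function of a member of `IntSpan Γ₀(N) w`. -/
def I_InSpan (N : ℕ) (w : ℤ) (g : ℍ → ℂ) : Prop :=
  ∃ F : ModularForm (CongruenceSubgroup.Gamma0 N) w, F ∈ IntSpan _ w ∧ ⇑F = g

variable {N : ℕ} {w a b c : ℤ} {g h : ℍ → ℂ}

theorem I_one_mem_strictPeriods (N : ℕ) :
    (1 : ℝ) ∈ ((CongruenceSubgroup.Gamma0 N).map (mapGL ℝ)).strictPeriods := by
  simp [CongruenceSubgroup.strictPeriods_Gamma0]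

theorem I_inSpan_zero : I_InSpan N w 0 := ⟨0, Submodule.zero_mem _, rfl⟩

theorem I_InSpan.add (hg : I_InSpan N w g) (hh : I_InSpan N w h) : I_InSpan N w (g + h) := by
  obtain ⟨G, hG, rfl⟩ := hg
  obtain ⟨H, hH, rfl⟩ := hh
  exact ⟨G + H, Submodule.add_mem _ hG hH, rfl⟩

theorem I_InSpan.smul (c : ℂ) (hg : I_InSpan N w g) : I_InSpan N w (c • g) := by
  obtain ⟨G, hG, rfl⟩ := hg
  exact ⟨c • G, Submodule.smul_mem _ c hG, rfl⟩

theorem I_InSpan.sum {ι : Type*} (s : Finset ι) (A : ι → ℍ → ℂ)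
    (hA : ∀ i ∈ s, I_InSpan N w (A i)) : I_InSpan N w (∑ i ∈ s, A i) :=
  Finset.sum_induction A (I_InSpan N w) (fun _ _ => I_InSpan.add) I_inSpan_zero hA

theorem I_InSpan.mul (hg : I_InSpan N a g) (hh : I_InSpan N b h) (hc : c = a + b) :
    I_InSpan N c (g * h) := by
  obtain ⟨G, hG, rfl⟩ := hg
  obtain ⟨H, hH, rfl⟩ := hh
  subst hc
  exact ⟨G.mul H, IntSpan.mul_mem (I_one_mem_strictPeriods N) hG hH, rfl⟩

variable [NeZero N]

/-- Level one forms lie in the integral span of every level (package L1). -/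
theorem I_InSpan.of_isMF1 (hg : IsMF1 w g) : I_InSpan N w g := by
  obtain ⟨G, rfl⟩ := hg
  have key : ∀ G : ModularForm 𝒮ℒ w, G ∈ IntSpan 𝒮ℒ w → I_InSpan N w ⇑G := by
    intro G hG
    induction hG using Submodule.span_induction with
    | mem x hx =>
      obtain ⟨F, hF⟩ := (IsMF1.isMF (N := N) ⟨x, rfl⟩ : IsMF N w ⇑x)
      refine ⟨F, mem_intSpan_of_isIntPS ?_, hF⟩
      rw [hF]
      exact hx
    | zero => exact I_inSpan_zero
    | add x y _ _ hx hy => exact hx.add hy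
    | smul c x _ hx => exact hx.smul c
  exact key G (levelOne_mem_intSpan w G)

theorem I_InSpan.pow (hg : I_InSpan N a g) (n : ℕ) : I_InSpan N (a * n) (g ^ n) := by
  induction n with
  | zero =>
    rw [pow_zero]
    have : a * ((0 : ℕ) : ℤ) = 0 := by simp
    rw [this]
    exact I_InSpan.of_isMF1 isMF1_one
  | succ n ih =>
    rw [pow_succ]
    exact ih.mul hg (by push_cast; ring)

/-- A polynomial whose coefficients are level one forms of the right weights, evaluated at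
a member of the integral span, lies in the integral span. -/
theorem I_eval_inSpan {wu W : ℤ} {U : ℍ → ℂ} (hU : I_InSpan N wu U) {P : Polynomial (ℍ → ℂ)}
    (hP : ∀ n : ℕ, IsMF1 (W - wu * n) (P.coeff n)) : I_InSpan N W (P.eval U) := by
  rw [Polynomial.eval_eq_sum_range]
  refine I_InSpan.sum _ _ fun i _ => ?_
  exact (I_InSpan.of_isMF1 (hP i)).mul (hU.pow i) (by ring)

theorem I_isMF1_coeff {wu W : ℤ} {P : Polynomial (ℍ → ℂ)} (hG : I_Good P)
    (hS : ∀ γ : SL(2, ℤ), I_SlRel γ wu W P P) (n : ℕ) : IsMF1 (W - wu * n) (P.coeff n) :=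
  isMF1_iff.mpr ⟨(hG n).1, fun γ => hS γ n, (hG n).2⟩

end InSpan

/-! ### The Lagrange polynomials -/

section Lagrange

variable {N : ℕ} [Fintype (Q N)] [DecidableEq (Q N)] {wu k : ℤ} {u f : ℍ → ℂ}

/-- `Φ = ∏_q (X - x_q)`, `x_q` the translates of `u`. -/
noncomputable def I_Phi (N : ℕ) [Fintype (Q N)] (wu : ℤ) (u : ℍ → ℂ) : Polynomial (ℍ → ℂ) :=
  ∏ q : Q N, (Polynomial.X - Polynomial.C (vec N wu u q))

/-- `Φ_q = ∏_{q' ≠ q} (X - x_{q'})`. -/
noncomputable def I_PhiErase (N : ℕ) [Fintype (Q N)] [DecidableEq (Q N)] (wu : ℤ) (u : ℍ → ℂ)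
    (q : Q N) : Polynomial (ℍ → ℂ) :=
  ∏ q' ∈ Finset.univ.erase q, (Polynomial.X - Polynomial.C (vec N wu u q'))

/-- `𝔄 = ∑_q y_q Φ_q`, `y_q` the translates of `f`. -/
noncomputable def I_Num (N : ℕ) [Fintype (Q N)] [DecidableEq (Q N)] (wu k : ℤ) (u f : ℍ → ℂ) :
    Polynomial (ℍ → ℂ) :=
  ∑ q : Q N, Polynomial.C (vec N k f q) * I_PhiErase N wu u q

theorem I_slRel_factor (hu : Inv N wu u) (γ : SL(2, ℤ)) (q : Q N) :
    I_SlRel γ wu wu (Polynomial.X - Polynomial.C (vec N wu u q))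
      (Polynomial.X - Polynomial.C (vec N wu u (γ⁻¹ • q))) :=
  I_SlRel.X.sub (I_SlRel.C (vec_slash hu q γ))

theorem I_slRel_Phi (hu : Inv N wu u) (γ : SL(2, ℤ)) :
    I_SlRel γ wu (wu * Fintype.card (Q N)) (I_Phi N wu u) (I_Phi N wu u) := by
  have h := I_SlRel.prod (γ := γ) (wu := wu) (w := wu) (Finset.univ : Finset (Q N))
    (A := fun q => Polynomial.X - Polynomial.C (vec N wu u q))
    (A' := fun q => Polynomial.X - Polynomial.C (vec N wu u (γ⁻¹ • q)))
    (fun q _ => I_slRel_factor hu γ q)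
  have e : ∏ q : Q N, (Polynomial.X - Polynomial.C (vec N wu u (γ⁻¹ • q))) = I_Phi N wu u :=
    Equiv.prod_comp (MulAction.toPerm γ⁻¹)
      (fun q : Q N => Polynomial.X - Polynomial.C (vec N wu u q))
  rw [e, Finset.card_univ] at h
  exact h

theorem I_phiErase_smul (γ : SL(2, ℤ)) (q : Q N) :
    ∏ q' ∈ Finset.univ.erase q, (Polynomial.X - Polynomial.C (vec N wu u (γ⁻¹ • q'))) =
      I_PhiErase N wu u (γ⁻¹ • q) := by
  unfold I_PhiErase
  have : Finset.univ.erase (γ⁻¹ • q) =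
      (Finset.univ.erase q).map (MulAction.toPerm γ⁻¹ : Equiv.Perm (Q N)).toEmbedding := by
    rw [Finset.map_erase, Finset.map_univ_equiv]
    rfl
  rw [this, Finset.prod_map]
  rfl

theorem I_slRel_PhiErase (hu : Inv N wu u) (γ : SL(2, ℤ)) (q : Q N) :
    I_SlRel γ wu (wu * (Fintype.card (Q N) - 1)) (I_PhiErase N wu u q)
      (I_PhiErase N wu u (γ⁻¹ • q)) := by
  have h := I_SlRel.prod (γ := γ) (wu := wu) (w := wu) (Finset.univ.erase q)
    (A := fun q => Polynomial.X - Polynomial.C (vec N wu u q))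
    (A' := fun q => Polynomial.X - Polynomial.C (vec N wu u (γ⁻¹ • q)))
    (fun q _ => I_slRel_factor hu γ q)
  rw [I_phiErase_smul, Finset.card_erase_of_mem (Finset.mem_univ q), Finset.card_univ] at h
  refine h.congr_weight ?_
  have : 1 ≤ Fintype.card (Q N) := Fintype.card_pos_iff.2 ⟨q⟩
  rw [Nat.cast_sub this]
  simp

theorem I_slRel_Num (hu : Inv N wu u) (hf : Inv N k f) (γ : SL(2, ℤ)) :
    I_SlRel γ wu (k + wu * (Fintype.card (Q N) - 1)) (I_Num N wu k u f) (I_Num N wu k u f) := by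
  have h := I_SlRel.sum (γ := γ) (wu := wu) (w := k + wu * (Fintype.card (Q N) - 1))
    (Finset.univ : Finset (Q N))
    (A := fun q => Polynomial.C (vec N k f q) * I_PhiErase N wu u q)
    (A' := fun q => Polynomial.C (vec N k f (γ⁻¹ • q)) * I_PhiErase N wu u (γ⁻¹ • q))
    (fun q _ => (I_SlRel.C (vec_slash hf q γ)).mul (I_slRel_PhiErase hu γ q))
  have e : ∑ q : Q N, Polynomial.C (vec N k f (γ⁻¹ • q)) * I_PhiErase N wu u (γ⁻¹ • q) =
      I_Num N wu k u f :=
    Equiv.sum_comp (MulAction.toPerm γ⁻¹)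
      (fun q : Q N => Polynomial.C (vec N k f q) * I_PhiErase N wu u q)
  rw [e] at h
  exact h

section GoodLagrange

variable [NeZero N]

theorem I_good_factor (hu : IsMF N wu u) (q : Q N) :
    I_Good (Polynomial.X - Polynomial.C (vec N wu u q)) :=
  I_good_X.sub (I_good_C (vec_mdiff hu.mdiff q) (hu.vec_bdd q))

theorem I_good_Phi (hu : IsMF N wu u) : I_Good (I_Phi N wu u) :=
  I_Good.prod _ fun q _ => I_good_factor hu q

theorem I_good_PhiErase (hu : IsMF N wu u) (q : Q N) : I_Good (I_PhiErase N wu u q) :=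
  I_Good.prod _ fun q _ => I_good_factor hu q

theorem I_good_Num (hu : IsMF N wu u) (hf : IsMF N k f) : I_Good (I_Num N wu k u f) :=
  I_Good.sum _ fun q _ => (I_good_C (vec_mdiff hf.mdiff q) (hf.vec_bdd q)).mul
    (I_good_PhiErase hu q)

end GoodLagrange

/-- `Φ'(u) = ∏_{q ≠ 1} (u - x_q)`. -/
theorem I_eval_derivative_Phi (hu : Inv N wu u) :
    (Polynomial.derivative (I_Phi N wu u)).eval u =
      ∏ q ∈ Finset.univ.erase (((1 : SL(2, ℤ)) : Q N)), (u - vec N wu u q) := by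
  unfold I_Phi
  rw [Polynomial.derivative_prod_finset, Polynomial.eval_finsetSum]
  rw [Finset.sum_eq_single (((1 : SL(2, ℤ)) : Q N))]
  · simp [Polynomial.eval_prod]
  · intro q _ hq
    rw [Polynomial.eval_mul, Polynomial.eval_prod]
    rw [Finset.prod_eq_zero (Finset.mem_erase.2 ⟨Ne.symm hq, Finset.mem_univ _⟩), zero_mul]
    simp [vec_one hu]
  · intro h
    exact absurd (Finset.mem_univ _) h

/-- `𝔄(u) = f · ∏_{q ≠ 1} (u - x_q)`. -/
theorem I_eval_Num (hu : Inv N wu u) (hf : Inv N k f) :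
    (I_Num N wu k u f).eval u =
      f * ∏ q ∈ Finset.univ.erase (((1 : SL(2, ℤ)) : Q N)), (u - vec N wu u q) := by
  unfold I_Num I_PhiErase
  rw [Polynomial.eval_finsetSum]
  rw [Finset.sum_eq_single (((1 : SL(2, ℤ)) : Q N))]
  · simp [Polynomial.eval_prod, vec_one hf]
  · intro q _ hq
    rw [Polynomial.eval_mul, Polynomial.eval_prod]
    rw [Finset.prod_eq_zero (Finset.mem_erase.2 ⟨Ne.symm hq, Finset.mem_univ _⟩), mul_zero]
    simp [vec_one hu]
  · intro h
    exact absurd (Finset.mem_univ _) h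

/-- Primitivity gives `Φ'(u) ≠ 0`. -/
theorem I_prod_ne_zero (hu : Inv N wu u) (hd : MDiff u)
    (hprim : ∀ γ : SL(2, ℤ), γ ∉ CongruenceSubgroup.Gamma0 N → u ∣[wu] γ ≠ u) :
    ∏ q ∈ Finset.univ.erase (((1 : SL(2, ℤ)) : Q N)), (u - vec N wu u q) ≠ 0 := by
  intro h0
  rw [UpperHalfPlane.prod_eq_zero_iff (fun q _ => hd.sub (vec_mdiff hd q))] at h0
  obtain ⟨q, hq, hq0⟩ := h0
  have hq1 : q ≠ (((1 : SL(2, ℤ)) : Q N)) := (Finset.mem_erase.1 hq).1
  induction q using QuotientGroup.induction_on with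
  | H g =>
    rw [vec_mk hu] at hq0
    have hg : g⁻¹ ∉ CongruenceSubgroup.Gamma0 N := by
      intro hmem
      apply hq1
      rw [QuotientGroup.eq]
      simpa using hmem
    exact hprim g⁻¹ hg (sub_eq_zero.1 hq0).symm

end Lagrange

/-! ### The main statement, given a primitive element -/

/-- **I**, with the primitive element as a hypothesis. -/
theorem ratio_of_primitive (N : ℕ) [NeZero N] {wu : ℤ}
    (u : ModularForm (CongruenceSubgroup.Gamma0 N) wu) (hu : u ∈ IntSpan _ wu)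
    (hprim : ∀ γ : SL(2, ℤ), γ ∉ CongruenceSubgroup.Gamma0 N →
        (⇑u) ∣[wu] (Matrix.SpecialLinearGroup.mapGL ℝ γ) ≠ ⇑u)
    {k : ℤ} (f : ModularForm (CongruenceSubgroup.Gamma0 N) k) :
    ∃ (w : ℤ) (A : ModularForm (CongruenceSubgroup.Gamma0 N) w)
      (B : ModularForm (CongruenceSubgroup.Gamma0 N) (w + k)),
      A ∈ IntSpan _ w ∧ B ∈ IntSpan _ (w + k) ∧ A ≠ 0 ∧ ∀ z : ℍ, f z * A z = B z := by
  classical
  let _ : Fintype (Q N) := Fintype.ofFinite _
  have hU : IsMF N wu ⇑u := ⟨u, rfl⟩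
  have hF : IsMF N k ⇑f := ⟨f, rfl⟩
  have hUi : Inv N wu ⇑u := hU.inv
  have hFi : Inv N k ⇑f := hF.inv
  have hA : I_InSpan N (wu * (Fintype.card (Q N) : ℤ) - wu)
      ((Polynomial.derivative (I_Phi N wu u)).eval u) :=
    I_eval_inSpan ⟨u, hu, rfl⟩ (I_isMF1_coeff (I_good_Phi hU).derivative
      (fun γ => (I_slRel_Phi hUi γ).derivative))
  have hB : I_InSpan N (wu * (Fintype.card (Q N) : ℤ) - wu + k) ((I_Num N wu k u f).eval u) :=
    I_eval_inSpan ⟨u, hu, rfl⟩ (I_isMF1_coeff (I_good_Num hU hF)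
      (fun γ => (I_slRel_Num hUi hFi γ).congr_weight (by ring)))
  obtain ⟨A, hAmem, hAeq⟩ := hA
  obtain ⟨B, hBmem, hBeq⟩ := hB
  refine ⟨_, A, B, hAmem, hBmem, ?_, ?_⟩
  · intro h0
    have h1 : (⇑A : ℍ → ℂ) = 0 := by rw [h0]; rfl
    rw [hAeq, I_eval_derivative_Phi hUi] at h1
    exact I_prod_ne_zero hUi u.holo' (fun γ hγ => hprim γ hγ) h1
  · intro z
    have h2 := congrFun hBeq z
    rw [I_eval_Num hUi hFi, ← I_eval_derivative_Phi hUi, ← hAeq] at h2
    simpa using h2.symm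

/-- **I** every modular form on `Γ₀(N)` is a ratio of two forms in the integral span. -/
theorem ratio (N : ℕ) [NeZero N] {k : ℤ} (f : ModularForm (CongruenceSubgroup.Gamma0 N) k) :
    ∃ (w : ℤ) (A : ModularForm (CongruenceSubgroup.Gamma0 N) w)
      (B : ModularForm (CongruenceSubgroup.Gamma0 N) (w + k)),
      A ∈ IntSpan _ w ∧ B ∈ IntSpan _ (w + k) ∧ A ≠ 0 ∧ ∀ z : ℍ, f z * A z = B z := by
  obtain ⟨u, hu, hprim⟩ := exists_primitive N
  exact ratio_of_primitive N u (mem_intSpan_of_isIntPS hu) hprim f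

end Fermat.Agent.S23
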