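import Mathlib
import Fermat.Prelude.Def_CuspForm_IntegralStructure

/-!
# S23 (integral structure on `S_k(Γ₀(N))`): shared definitions

Interface definitions for the S23 project (see `NOTES/items/22.md`).
All names live in the namespace `Fermat.Agent.S23`.
-/

set_option autoImplicit false

open UpperHalfPlane ModularForm ModularFormClass
open scoped MatrixGroups

namespace Fermat.Agent.S23

/-- A complex power series all of whose coefficients are (images of) integers. -/
def IsIntPS (P : PowerSeries ℂ) : Prop := ∀ n : ℕ, ∃ m : ℤ, PowerSeries.coeff n P = (m : ℂ)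

/-- A complex power series all of whose coefficients are (images of) rationals. -/
def IsRatPS (P : PowerSeries ℂ) : Prop := ∀ n : ℕ, ∃ r : ℚ, PowerSeries.coeff n P = (r : ℂ)

/-- The `ℂ`-span of the integral power series. -/
def IntSpanPS : Submodule ℂ (PowerSeries ℂ) := Submodule.span ℂ {P | IsIntPS P}

/-- The `ℂ`-span of the modular forms of level `Γ`, weight `k` with integral `q`-expansion. -/
def IntSpan (Γ : Subgroup (GL (Fin 2) ℝ)) [Γ.HasDetOne] (k : ℤ) : Submodule ℂ (ModularForm Γ k) :=
  Submodule.span ℂ {g | IsIntPS (qExpansion 1 g)}

end Fermat.Agent.S23
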