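import Fermat.Agent.S23.Defs

/-!
# S23: basic closure properties of integral power series and of `IntSpan`
-/

set_option autoImplicit false

open UpperHalfPlane ModularForm ModularFormClass
open scoped MatrixGroups

namespace Fermat.Agent.S23

lemma isIntPS_iff (P : PowerSeries ℂ) :
    IsIntPS P ↔ ∃ Q : PowerSeries ℤ, Q.map (Int.castRingHom ℂ) = P := by
  constructor
  · intro h
    choose m hm using h
    refine ⟨PowerSeries.mk m, ?_⟩
    ext n
    simp [hm n]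
  · rintro ⟨Q, rfl⟩ n
    exact ⟨PowerSeries.coeff n Q, by simp⟩

lemma isRatPS_iff (P : PowerSeries ℂ) :
    IsRatPS P ↔ ∃ Q : PowerSeries ℚ, Q.map (algebraMap ℚ ℂ) = P := by
  constructor
  · intro h
    choose m hm using h
    refine ⟨PowerSeries.mk m, ?_⟩
    ext n
    simp [hm n]
  · rintro ⟨Q, rfl⟩ n
    exact ⟨PowerSeries.coeff n Q, by simp⟩

lemma IsIntPS.isRatPS {P : PowerSeries ℂ} (h : IsIntPS P) : IsRatPS P := fun n => by
  obtain ⟨m, hm⟩ := h n
  exact ⟨m, by simp [hm]⟩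

lemma IsIntPS.zero : IsIntPS 0 := (isIntPS_iff _).2 ⟨0, by simp⟩

lemma IsIntPS.one : IsIntPS 1 := (isIntPS_iff _).2 ⟨1, by simp⟩

lemma IsIntPS.add {P Q : PowerSeries ℂ} (hP : IsIntPS P) (hQ : IsIntPS Q) : IsIntPS (P + Q) := by
  obtain ⟨P', rfl⟩ := (isIntPS_iff _).1 hP
  obtain ⟨Q', rfl⟩ := (isIntPS_iff _).1 hQ
  exact (isIntPS_iff _).2 ⟨P' + Q', by simp⟩

lemma IsIntPS.neg {P : PowerSeries ℂ} (hP : IsIntPS P) : IsIntPS (-P) := by
  obtain ⟨P', rfl⟩ := (isIntPS_iff _).1 hP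
  exact (isIntPS_iff _).2 ⟨-P', by simp⟩

lemma IsIntPS.sub {P Q : PowerSeries ℂ} (hP : IsIntPS P) (hQ : IsIntPS Q) : IsIntPS (P - Q) := by
  obtain ⟨P', rfl⟩ := (isIntPS_iff _).1 hP
  obtain ⟨Q', rfl⟩ := (isIntPS_iff _).1 hQ
  exact (isIntPS_iff _).2 ⟨P' - Q', by simp⟩

lemma IsIntPS.mul {P Q : PowerSeries ℂ} (hP : IsIntPS P) (hQ : IsIntPS Q) : IsIntPS (P * Q) := by
  obtain ⟨P', rfl⟩ := (isIntPS_iff _).1 hP
  obtain ⟨Q', rfl⟩ := (isIntPS_iff _).1 hQ
  exact (isIntPS_iff _).2 ⟨P' * Q', by simp⟩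

lemma IsIntPS.pow {P : PowerSeries ℂ} (hP : IsIntPS P) (n : ℕ) : IsIntPS (P ^ n) := by
  obtain ⟨P', rfl⟩ := (isIntPS_iff _).1 hP
  exact (isIntPS_iff _).2 ⟨P' ^ n, by simp⟩

lemma IsIntPS.int_smul {P : PowerSeries ℂ} (hP : IsIntPS P) (m : ℤ) : IsIntPS ((m : ℂ) • P) := by
  intro n
  obtain ⟨a, ha⟩ := hP n
  exact ⟨m * a, by simp [ha]⟩

lemma IsRatPS.zero : IsRatPS 0 := IsIntPS.zero.isRatPS

lemma IsRatPS.add {P Q : PowerSeries ℂ} (hP : IsRatPS P) (hQ : IsRatPS Q) : IsRatPS (P + Q) := by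
  obtain ⟨P', rfl⟩ := (isRatPS_iff _).1 hP
  obtain ⟨Q', rfl⟩ := (isRatPS_iff _).1 hQ
  exact (isRatPS_iff _).2 ⟨P' + Q', by simp⟩

lemma IsRatPS.sub {P Q : PowerSeries ℂ} (hP : IsRatPS P) (hQ : IsRatPS Q) : IsRatPS (P - Q) := by
  obtain ⟨P', rfl⟩ := (isRatPS_iff _).1 hP
  obtain ⟨Q', rfl⟩ := (isRatPS_iff _).1 hQ
  exact (isRatPS_iff _).2 ⟨P' - Q', by simp⟩

lemma IsRatPS.mul {P Q : PowerSeries ℂ} (hP : IsRatPS P) (hQ : IsRatPS Q) : IsRatPS (P * Q) := by
  obtain ⟨P', rfl⟩ := (isRatPS_iff _).1 hP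
  obtain ⟨Q', rfl⟩ := (isRatPS_iff _).1 hQ
  exact (isRatPS_iff _).2 ⟨P' * Q', by simp⟩

lemma IsRatPS.rat_smul {P : PowerSeries ℂ} (hP : IsRatPS P) (r : ℚ) : IsRatPS ((r : ℂ) • P) := by
  intro n
  obtain ⟨a, ha⟩ := hP n
  exact ⟨r * a, by simp [ha]⟩

/-! ### `IntSpanPS` -/

lemma IsIntPS.mem_intSpanPS {P : PowerSeries ℂ} (hP : IsIntPS P) : P ∈ IntSpanPS :=
  Submodule.subset_span hP

lemma IntSpanPS.mul_mem {P Q : PowerSeries ℂ} (hP : P ∈ IntSpanPS) (hQ : Q ∈ IntSpanPS) :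
    P * Q ∈ IntSpanPS := by
  induction hP using Submodule.span_induction with
  | mem x hx =>
    induction hQ using Submodule.span_induction with
    | mem y hy => exact (IsIntPS.mul hx hy).mem_intSpanPS
    | zero => simp
    | add y z _ _ hy hz => rw [mul_add]; exact IntSpanPS.add_mem hy hz
    | smul c y _ hy => rw [mul_smul_comm]; exact IntSpanPS.smul_mem c hy
  | zero => simp
  | add y z _ _ hy hz => rw [add_mul]; exact IntSpanPS.add_mem hy hz
  | smul c y _ hy => rw [smul_mul_assoc]; exact IntSpanPS.smul_mem c hy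

/-! ### `IntSpan` -/

section IntSpan

variable {Γ : Subgroup (GL (Fin 2) ℝ)} [Γ.HasDetOne]

lemma mem_intSpan_of_isIntPS {k : ℤ} {g : ModularForm Γ k} (hg : IsIntPS (qExpansion 1 g)) :
    g ∈ IntSpan Γ k :=
  Submodule.subset_span hg

lemma IntSpan.mul_mem (hΓ : (1 : ℝ) ∈ Γ.strictPeriods) {a b : ℤ} {f : ModularForm Γ a}
    {g : ModularForm Γ b} (hf : f ∈ IntSpan Γ a) (hg : g ∈ IntSpan Γ b) :
    f.mul g ∈ IntSpan Γ (a + b) := by
  induction hf using Submodule.span_induction with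
  | mem x hx =>
    induction hg using Submodule.span_induction with
    | mem y hy =>
      apply mem_intSpan_of_isIntPS
      rw [ModularForm.qExpansion_mul one_pos hΓ]
      exact hx.mul hy
    | zero =>
      have : x.mul (0 : ModularForm Γ b) = 0 := by ext z; simp
      rw [this]; exact Submodule.zero_mem _
    | add y z _ _ hy hz =>
      have : x.mul (y + z) = x.mul y + x.mul z := by ext w; simp [mul_add]
      rw [this]; exact Submodule.add_mem _ hy hz
    | smul c y _ hy =>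
      have : x.mul (c • y) = c • x.mul y := by ext w; simp [mul_left_comm]
      rw [this]; exact Submodule.smul_mem _ c hy
  | zero =>
    have : (0 : ModularForm Γ a).mul g = 0 := by ext z; simp
    rw [this]; exact Submodule.zero_mem _
  | add y z _ _ hy hz =>
    have : (y + z).mul g = y.mul g + z.mul g := by ext w; simp [add_mul]
    rw [this]; exact Submodule.add_mem _ hy hz
  | smul c y _ hy =>
    have : (c • y).mul g = c • y.mul g := by ext w; simp [mul_assoc]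
    rw [this]; exact Submodule.smul_mem _ c hy

lemma IntSpan.mcast_mem {a b : ℤ} (h : a = b) {f : ModularForm Γ a} (hf : f ∈ IntSpan Γ a) :
    ModularForm.mcast h f ∈ IntSpan Γ b := by
  subst h
  have : ModularForm.mcast rfl f = f := by ext z; rfl
  rw [this]; exact hf

/-- membership in `IntSpan` only depends on the underlying function. -/
lemma IntSpan.mem_of_coe_eq {a b : ℤ} (h : a = b) {f : ModularForm Γ a} {g : ModularForm Γ b}
    (hf : f ∈ IntSpan Γ a) (hfg : ∀ z, g z = f z) : g ∈ IntSpan Γ b := by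
  have : g = ModularForm.mcast h f := by ext z; simpa using hfg z
  rw [this]; exact IntSpan.mcast_mem h hf

lemma IntSpan.qExpansion_mem (hΓ : (1 : ℝ) ∈ Γ.strictPeriods) {k : ℤ} {f : ModularForm Γ k}
    (hf : f ∈ IntSpan Γ k) : qExpansion 1 f ∈ IntSpanPS := by
  induction hf using Submodule.span_induction with
  | mem x hx => exact hx.mem_intSpanPS
  | zero => simp [qExpansion_zero]
  | add y z _ _ hy hz =>
    rw [show (⇑(y + z) : ℍ → ℂ) = ⇑y + ⇑z from rfl, ModularForm.qExpansion_add one_pos hΓ]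
    exact IntSpanPS.add_mem hy hz
  | smul c y _ hy =>
    rw [show (⇑(c • y) : ℍ → ℂ) = c • ⇑y from rfl, ModularForm.qExpansion_smul one_pos hΓ]
    exact IntSpanPS.smul_mem c hy

end IntSpan

end Fermat.Agent.S23
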